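import Fermat.Agent.S55.HQ.ChevalleyDefs

/-!
# S55-HQ : on `(s-1)A` one has `p = unit * (s-1)^(p-1)`
-/

namespace Fermat.Agent.S55.HQ

open Finset Polynomial

/-- `Φ_p ∣ ∏_{i<p-1} (1 - X^(i+1)) - p` in `ℤ[X]`. -/
theorem chevalleyunit_cyclo_dvd (p : ℕ) [hp : Fact p.Prime] :
    (∑ i ∈ range p, (X : ℤ[X]) ^ i) ∣
      (∏ i ∈ range (p - 1), (1 - (X : ℤ[X]) ^ (i + 1))) - C (p : ℤ) := by
  have hp0 : p ≠ 0 := hp.out.ne_zero
  have hμ : IsPrimitiveRoot (Complex.exp (2 * Real.pi * Complex.I / p)) p :=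
    Complex.isPrimitiveRoot_exp p hp0
  set μ := Complex.exp (2 * Real.pi * Complex.I / p) with hμdef
  rw [← Polynomial.cyclotomic_prime ℤ p, Polynomial.cyclotomic_eq_minpoly hμ hp.out.pos]
  apply minpoly.isIntegrallyClosed_dvd (hμ.isIntegral hp.out.pos)
  have h1 : p - 1 + 1 = p := Nat.sub_add_cancel hp.out.one_le
  have hμ' : IsPrimitiveRoot μ (p - 1 + 1) := by rw [h1]; exact hμ
  have := hμ'.prod_one_sub_pow_eq_order
  simp only [map_sub, map_prod, map_one, map_pow, aeval_X, aeval_C]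
  rw [this]
  have h2 : ((p - 1 : ℕ) : ℂ) + 1 = (p : ℂ) := by
    rw [← Nat.cast_succ, Nat.succ_eq_add_one, h1]
  rw [h2]
  simp

/-- The geometric polynomial `ε_k = 1 + X + ... + X^(k-1)`. -/
noncomputable def chevalleyunitE (k : ℕ) : ℤ[X] := ∑ j ∈ range k, X ^ j

theorem chevalleyunitE_mul (k : ℕ) : chevalleyunitE k * (1 - X) = 1 - X ^ k := by
  unfold chevalleyunitE
  exact geom_sum_mul_neg X k

/-- The candidate inverse `1 + X^k + ... + X^(k(m-1))`. -/
noncomputable def chevalleyunitE' (k m : ℕ) : ℤ[X] := ∑ j ∈ range m, (X ^ k) ^ j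

theorem chevalleyunitE'_mul (k m : ℕ) : chevalleyunitE' k m * (1 - X ^ k) = 1 - X ^ (k * m) := by
  unfold chevalleyunitE'
  rw [geom_sum_mul_neg, pow_mul]

theorem chevalleyunit_key_poly (k m : ℕ) :
    chevalleyunitE k * chevalleyunitE' k m * (1 - X) = 1 - X ^ (k * m) := by
  rw [← chevalleyunitE'_mul, ← chevalleyunitE_mul]; ring

variable {A : Type*} [AddCommGroup A]

theorem chevalleyunit_aeval_key (S : Module.End ℤ A) (p : ℕ) (hS : S ^ p = 1) (k m : ℕ)
    (hkm : k * m % p = 1) :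
    aeval S (chevalleyunitE k * chevalleyunitE' k m) * (1 - S) = 1 - S := by
  have h := congrArg (aeval S) (chevalleyunit_key_poly k m)
  simp only [map_mul, map_sub, map_one, aeval_X, map_pow] at h
  rw [map_mul, h]
  have : S ^ (k * m) = S := by
    conv_lhs =>
      rw [← Nat.div_add_mod (k * m) p, pow_add, pow_mul, hS, one_pow, one_mul, hkm, pow_one]
  rw [this]

theorem chevalleyunit_aeval_prod (S : Module.End ℤ A) (p : ℕ) (hS : S ^ p = 1) (mm : ℕ → ℕ)
    (n : ℕ) (hmm : ∀ i < n, (i + 1) * mm i % p = 1) :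
    aeval S (∏ i ∈ range n, (chevalleyunitE (i + 1) * chevalleyunitE' (i + 1) (mm i))) * (1 - S)
      = 1 - S := by
  induction n with
  | zero => simp
  | succ n ih =>
    rw [prod_range_succ, map_mul, mul_assoc,
      chevalleyunit_aeval_key S p hS (n + 1) (mm n) (hmm n (Nat.lt_succ_self n))]
    exact ih fun i hi => hmm i (Nat.lt_succ_of_lt hi)

/-- (C1) On `B = (s-1)A` the endomorphism `p` equals `(s-1)^(p-1)` times an automorphism:
there is `u : B →+ B` bijective with `p • b = u (τ^[p-1] b)` for all `b ∈ B`.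
[`p = ∏_{i=1}^{p-1} (1 - X^i)` mod `Φ_p(X)`
(Mathlib `IsPrimitiveRoot.prod_one_sub_pow_eq_order` in `AdjoinRoot (cyclotomic p ℤ)`, then
`AdjoinRoot.mk_eq_zero` + `Polynomial.aeval`), `1 - X^i = (1 - X) ε_i(X)`,
`ε_i = 1 + X + ... + X^(i-1)`, and `ε_i(s)` is invertible on `(s-1)A` with inverse
`1 + s^i + ... + s^(i(j-1))`, `i j ≡ 1 mod p`, because `(1 - s)(ε_i ε_i' - 1) = 0`;
`Φ_p(s) = N` kills `(s-1)A`.] -/
theorem exists_unit_on_range (p : ℕ) [Fact p.Prime] (s : A →+ A) (hs : ∀ x, s^[p] x = x) :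
    ∃ u : (sm1 s).range →+ (sm1 s).range, Function.Bijective u ∧
      ∀ b : (sm1 s).range, p • b = u ((tau s)^[p - 1] b) := by
  classical
  have hp : p.Prime := Fact.out
  set S : Module.End ℤ A := s.toIntLinearMap with hSdef
  have hSapp : ∀ x, S x = s x := fun x => rfl
  have hSit : ∀ (n : ℕ) (x : A), (S ^ n) x = s^[n] x := by
    intro n x
    rw [Module.End.pow_apply]
    rfl
  have hS : S ^ p = 1 := by
    ext x
    rw [hSit, hs]; rfl
  -- the inverses mod p
  have hex : ∀ i : ℕ, ∃ m : ℕ, i < p - 1 → (i + 1) * m % p = 1 := by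
    intro i
    by_cases hi : i < p - 1
    · have hcop : Nat.Coprime (i + 1) p := by
        apply Nat.Coprime.symm
        rw [hp.coprime_iff_not_dvd]
        intro hdvd
        have := Nat.le_of_dvd (Nat.succ_pos i) hdvd
        omega
      obtain ⟨m, -, hm⟩ := Nat.exists_mul_mod_eq_one_of_coprime hcop hp.one_lt
      exact ⟨m, fun _ => hm⟩
    · exact ⟨0, fun h => absurd h hi⟩
  choose mm hmm using hex
  set Pu : ℤ[X] := ∏ i ∈ range (p - 1), chevalleyunitE (i + 1) with hPu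
  set Pv : ℤ[X] := ∏ i ∈ range (p - 1), chevalleyunitE' (i + 1) (mm i) with hPv
  set c : ℤ[X] := C ((-1 : ℤ) ^ (p - 1)) with hc
  have hcc : c * c = 1 := by
    rw [hc, ← C_mul, ← mul_pow]; simp
  have hUV : aeval S (Pu * Pv) * (1 - S) = 1 - S := by
    rw [hPu, hPv, ← prod_mul_distrib]
    exact chevalleyunit_aeval_prod S p hS mm (p - 1) hmm
  -- elements of B
  have hBmem : ∀ b : (sm1 s).range, ∃ a : A, (b : A) = (S - 1) a := by
    intro b
    obtain ⟨a, ha⟩ := b.2
    exact ⟨a, by rw [← ha]; rfl⟩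
  have hcomm : ∀ (P : ℤ[X]) (a : A), aeval S P ((S - 1) a) = (S - 1) (aeval S P a) := by
    intro P a
    have h1 : aeval S P * (S - 1) = (S - 1) * aeval S P := by
      have : (S - 1 : Module.End ℤ A) = aeval S (X - 1 : ℤ[X]) := by simp
      rw [this, ← map_mul, ← map_mul, mul_comm]
    exact LinearMap.congr_fun h1 a
  have hstab : ∀ (P : ℤ[X]), ∀ x ∈ (sm1 s).range,
      (aeval S P).toAddMonoidHom x ∈ (sm1 s).range := by
    intro P x hx
    obtain ⟨a, ha⟩ := hBmem ⟨x, hx⟩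
    simp only at ha
    refine ⟨aeval S P a, ?_⟩
    rw [ha]
    exact (hcomm P a).symm
  let op : ℤ[X] → ((sm1 s).range →+ (sm1 s).range) := fun P =>
    restr (aeval S P).toAddMonoidHom (sm1 s).range (hstab P)
  have hop : ∀ (P : ℤ[X]) (b : (sm1 s).range), ((op P b : (sm1 s).range) : A) = aeval S P b :=
    fun P b => rfl
  have hone : ∀ b : (sm1 s).range, aeval S (Pu * Pv) (b : A) = b := by
    intro b
    obtain ⟨a, ha⟩ := hBmem b
    have h2 := LinearMap.congr_fun hUV a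
    have h3 : (S - 1) a = -((1 - S) a) := by
      simp [LinearMap.sub_apply]
    rw [ha, h3, map_neg]
    congr 1
  have hinv1 : ∀ b, op (c * Pu) (op (c * Pv) b) = b := by
    intro b
    apply Subtype.ext
    rw [hop, hop]
    have : aeval S (c * Pu) (aeval S (c * Pv) (b : A)) = aeval S (Pu * Pv) (b : A) := by
      have h4 : (c * Pu) * (c * Pv) = Pu * Pv := by
        calc (c * Pu) * (c * Pv) = (c * c) * (Pu * Pv) := by ring
          _ = Pu * Pv := by rw [hcc, one_mul]
      rw [← h4, map_mul (aeval S) (c * Pu) (c * Pv), Module.End.mul_apply]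
    rw [this, hone]
  have hinv2 : ∀ b, op (c * Pv) (op (c * Pu) b) = b := by
    intro b
    apply Subtype.ext
    rw [hop, hop]
    have : aeval S (c * Pv) (aeval S (c * Pu) (b : A)) = aeval S (Pu * Pv) (b : A) := by
      have h4 : (c * Pv) * (c * Pu) = Pu * Pv := by
        calc (c * Pv) * (c * Pu) = (c * c) * (Pu * Pv) := by ring
          _ = Pu * Pv := by rw [hcc, one_mul]
      rw [← h4, map_mul (aeval S) (c * Pv) (c * Pu), Module.End.mul_apply]
    rw [this, hone]
  refine ⟨op (c * Pu), Function.bijective_iff_has_inverse.mpr ⟨op (c * Pv), hinv2, hinv1⟩, ?_⟩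
  intro b
  apply Subtype.ext
  rw [hop]
  -- iterates of tau
  have htau : ∀ (n : ℕ) (b : (sm1 s).range), (((tau s)^[n] b : (sm1 s).range) : A)
      = ((S - 1) ^ n) (b : A) := by
    intro n
    induction n with
    | zero => intro b; simp
    | succ n ih =>
      intro b
      rw [Function.iterate_succ_apply', pow_succ', Module.End.mul_apply, ← ih b]
      rfl
  rw [htau]
  -- the polynomial identity
  obtain ⟨Q, hQ⟩ := chevalleyunit_cyclo_dvd p
  have hprod : (∏ i ∈ range (p - 1), (1 - (X : ℤ[X]) ^ (i + 1))) = (c * Pu) * (X - 1) ^ (p - 1) := by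
    have h5 : ∀ i ∈ range (p - 1), (1 - (X : ℤ[X]) ^ (i + 1)) = chevalleyunitE (i + 1) * (1 - X) :=
      fun i _ => (chevalleyunitE_mul (i + 1)).symm
    rw [prod_congr rfl h5, prod_mul_distrib, prod_const, card_range]
    have h6 : (1 - X : ℤ[X]) ^ (p - 1) = c * (X - 1) ^ (p - 1) := by
      have : (1 - X : ℤ[X]) = -(X - 1) := by ring
      rw [this, neg_pow, hc]
      simp
    rw [h6]; ring
  have hN : aeval S (∑ i ∈ range p, (X : ℤ[X]) ^ i) (b : A) = 0 := by
    obtain ⟨a, ha⟩ := b.2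
    have h7 : aeval S (∑ i ∈ range p, (X : ℤ[X]) ^ i) (b : A) = nrm p s (b : A) := by
      simp only [map_sum, map_pow, aeval_X, LinearMap.sum_apply, hSit, nrm_apply]
    rw [h7, ← ha, nrm_sm1 p s hs]
  have h8 := congrArg (fun P => aeval S P (b : A)) hQ
  beta_reduce at h8
  rw [mul_comm (∑ i ∈ range p, (X : ℤ[X]) ^ i) Q, map_mul, Module.End.mul_apply, hN, map_zero,
    map_sub, LinearMap.sub_apply, sub_eq_zero, hprod, map_mul, Module.End.mul_apply] at h8
  have h9 : aeval S ((X - 1 : ℤ[X]) ^ (p - 1)) = (S - 1) ^ (p - 1) := by simp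
  rw [h9] at h8
  rw [h8]
  rw [aeval_C]
  simp [Module.algebraMap_end_apply]

end Fermat.Agent.S55.HQ
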