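import Fermat.Agent.S55.HQ.HerbrandMore
import Fermat.Agent.S55.HQ.ChevalleyUnit

/-!
# S55-HQ : (HQ2) Chevalley's formula `h(A)^(p-1) = q(A^C)^p / q(A)` for `C` cyclic of prime order

A `C`-module is given by an additive commutative group `A` with an endomorphism `s` such that
`s^[p] = id`.   `h(A) = q_{s-1, N}(A)`, `q(A) = q_{0,p}(A)`.
-/

namespace Fermat.Agent.S55.HQ

open Finset

variable {A : Type*} [AddCommGroup A]

/-- The `n`-th iterate of an endomorphism, as an endomorphism. -/
private def chevalley_iter (f : A →+ A) (n : ℕ) : A →+ A :=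
  ((show AddMonoid.End A from f) ^ n : AddMonoid.End A)

private theorem chevalley_iter_apply (f : A →+ A) (n : ℕ) (x : A) :
    chevalley_iter f n x = f^[n] x := by
  unfold chevalley_iter
  exact congrFun (AddMonoid.End.coe_pow (M := A) f n) x

/-- (C2) `q_{0,p}(B) = q_{0,s-1}(B)^(p-1)` for `B = (s-1)A`, including definedness. -/
theorem hq_range (p : ℕ) [Fact p.Prime] (s : A →+ A) (hs : ∀ x, s^[p] x = x)
    (hB : HQDefined 0 (mulN (sm1 s).range p)) :
    HQDefined 0 (tau s) ∧ hq 0 (mulN (sm1 s).range p) = hq 0 (tau s) ^ (p - 1) := by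
  obtain ⟨u, hu, hpu⟩ := exists_unit_on_range p s hs
  have hp2 : 2 ≤ p := (Fact.out : p.Prime).two_le
  let F : (sm1 s).range →+ (sm1 s).range := chevalley_iter (tau s) (p - 1)
  have hF : ∀ x, F x = (tau s)^[p - 1] x := chevalley_iter_apply (tau s) (p - 1)
  have hmul : mulN (sm1 s).range p = u.comp F := by
    ext1 b
    rw [AddMonoidHom.comp_apply, hF, ← hpu, mulN_apply]
  let e : (sm1 s).range ≃+ (sm1 s).range := AddEquiv.ofBijective u hu
  have he : ∀ x, e.symm (u x) = x := fun x => e.symm_apply_apply x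
  have hFdef : HQDefined 0 F := by
    have h1 := (hq_zero_of_bijective e.symm.toAddMonoidHom e.symm.bijective).1
    have h2 := (hq_zero_comp e.symm.toAddMonoidHom (mulN (sm1 s).range p) h1 hB).1
    have h3 : e.symm.toAddMonoidHom.comp (mulN (sm1 s).range p) = F := by
      rw [hmul]
      ext1 b
      exact he (F b)
    rwa [h3] at h2
  have hτ : HQDefined 0 (tau s) := by
    have h1 : F = (tau s).comp (chevalley_iter (tau s) (p - 2)) := by
      ext1 b
      rw [AddMonoidHom.comp_apply, hF, chevalley_iter_apply,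
        ← Function.iterate_succ_apply' (tau s) (p - 2) b]
      congr 2
      omega
    refine defined_zero_of_comp (tau s) (chevalley_iter (tau s) (p - 2)) ?_ (h1 ▸ hFdef)
    intro x
    rw [chevalley_iter_apply, chevalley_iter_apply,
      ← Function.iterate_succ_apply' (tau s) (p - 2) x,
      ← Function.iterate_succ_apply (tau s) (p - 2) x]
  refine ⟨hτ, ?_⟩
  have h1 := (hq_zero_iterate (tau s) hτ (p - 1) F hF).2
  have h2 := hq_zero_of_bijective u hu
  have h3 := (hq_zero_comp u F h2.1 hFdef).2
  rw [hmul, h3, h2.2, h1, one_mul]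

/-- (C3) definedness of `q_{0,p}` passes to `B = (s-1)A` (a subgroup and a quotient of `A`). -/
theorem defined_range (p : ℕ) (s : A →+ A) (hA : HQDefined 0 (mulN A p)) :
    HQDefined 0 (mulN (sm1 s).range p) := by
  obtain ⟨h1, h2⟩ := hA
  rw [hnum_zero_left] at h1
  rw [hnum_zero_right] at h2
  refine ⟨?_, ?_⟩
  · rw [hnum_zero_left]
    have hsurj : Function.Surjective (sm1 s).rangeRestrict := (sm1 s).rangeRestrict_surjective
    rw [← AddSubgroup.index_comap_of_surjective _ hsurj]
    have hle : (mulN A p).range ≤ (mulN (sm1 s).range p).range.comap (sm1 s).rangeRestrict := by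
      rintro _ ⟨x, rfl⟩
      refine ⟨(sm1 s).rangeRestrict x, ?_⟩
      rw [mulN_apply, mulN_apply, map_nsmul]
    exact fun h0 => h1 (Nat.eq_zero_of_zero_dvd (h0 ▸ AddSubgroup.index_dvd_of_le hle))
  · rw [hnum_zero_right]
    have hfin : Finite (mulN A p).ker := (Nat.card_ne_zero.1 h2).2
    have : Finite (mulN (sm1 s).range p).ker := by
      refine Finite.of_injective
        (fun x : (mulN (sm1 s).range p).ker => (⟨x.1.1, ?_⟩ : (mulN A p).ker)) ?_
      · have hx := x.2
        rw [AddMonoidHom.mem_ker, mulN_apply] at hx ⊢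
        exact congrArg (Subtype.val) hx
      · intro x y hxy
        have := congrArg Subtype.val hxy
        exact Subtype.ext (Subtype.ext this)
    exact Nat.card_ne_zero.2 ⟨⟨0⟩, this⟩

private theorem chevalley_iterate_fixed (s : A →+ A) (x : A) (hx : s x = x) (n : ℕ) :
    s^[n] x = x := Function.iterate_fixed hx n

/-- **(HQ2) Chevalley's formula.**  `A^C = ker (s - 1)`. -/
theorem chevalley (p : ℕ) [Fact p.Prime] (s : A →+ A) (hs : ∀ x, s^[p] x = x)
    (hA : HQDefined 0 (mulN A p)) :
    HQDefined (sm1 s) (nrm p s) ∧ HQDefined 0 (mulN (sm1 s).ker p) ∧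
      hq (sm1 s) (nrm p s) ^ (p - 1) = hq 0 (mulN (sm1 s).ker p) ^ p / hq 0 (mulN A p) := by
  have hp2 : 2 ≤ p := (Fact.out : p.Prime).two_le
  have hex : (sm1 s).ker.subtype.range = (sm1 s).rangeRestrict.ker := by
    rw [AddSubgroup.range_subtype, AddMonoidHom.ker_rangeRestrict]
  have E1 : HQExact (sm1 s).ker.subtype (sm1 s).rangeRestrict
      (0 : (sm1 s).ker →+ (sm1 s).ker) (mulN (sm1 s).ker p) (0 : A →+ A) (mulN A p)
      (0 : (sm1 s).range →+ (sm1 s).range) (mulN (sm1 s).range p) :=
    { inj := Subtype.val_injective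
      surj := (sm1 s).rangeRestrict_surjective
      exact := hex
      f_i := fun x => by simp
      g_i := fun x => by simp
      π_f := fun x => by simp
      π_g := fun x => by rw [mulN_apply, mulN_apply, map_nsmul]
      fg := fun x => by simp
      gf := fun x => by simp }
  have E2 : HQExact (sm1 s).ker.subtype (sm1 s).rangeRestrict
      (0 : (sm1 s).ker →+ (sm1 s).ker) (mulN (sm1 s).ker p) (sm1 s) (nrm p s)
      (tau s) (0 : (sm1 s).range →+ (sm1 s).range) :=
    { inj := Subtype.val_injective
      surj := (sm1 s).rangeRestrict_surjective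
      exact := hex
      f_i := fun x => by
        have := x.2
        rw [AddMonoidHom.mem_ker] at this
        simpa using this
      g_i := fun x => by
        have hx : s (x : A) = x := by
          have := x.2
          rw [AddMonoidHom.mem_ker, sm1_apply, sub_eq_zero] at this
          exact this
        have : ∀ i ∈ range p, s^[i] (x : A) = x := fun i _ => chevalley_iterate_fixed s x hx i
        rw [AddSubgroup.subtype_apply, nrm_apply, sum_congr rfl this]
        simp
      π_f := fun x => Subtype.ext rfl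
      π_g := fun x => Subtype.ext (sm1_nrm p s hs x)
      fg := sm1_nrm p s hs
      gf := nrm_sm1 p s hs }
  have hBdef := defined_range p s hA
  have hKdef := E1.defined_left hA hBdef
  obtain ⟨hτ, hqB⟩ := hq_range p s hs hBdef
  have hmid := E2.defined_mid hKdef hτ.symm
  have eq1 := E1.hq_eq hKdef hBdef
  have eq2 := E2.hq_eq hKdef hτ.symm
  refine ⟨hmid, hKdef, ?_⟩
  rw [eq1, eq2, hqB, hq_swap 0 (tau s)]
  have hK0 := hKdef.hq_ne_zero
  have ht0 := hτ.hq_ne_zero
  obtain ⟨m, rfl⟩ : ∃ m, p = m + 1 := ⟨p - 1, by omega⟩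
  rw [Nat.add_sub_cancel, mul_pow, inv_pow, pow_succ]
  field_simp

end Fermat.Agent.S55.HQ
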