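import Mathlib

/-!
# S55-HQ : definitions for (HQ2) Chevalley's formula `h(A)^(p-1) = q(A^C)^p / q(A)`

A `C`-module is given by an additive commutative group `A` with an endomorphism `s` such that
`s^[p] = id`.   `h(A) = q_{s-1, N}(A)`, `q(A) = q_{0,p}(A)`.
-/

namespace Fermat.Agent.S55.HQ

open Finset

variable {A : Type*} [AddCommGroup A]

/-- The norm `N = 1 + s + ... + s^(p-1)`. -/
def nrm (p : ℕ) (s : A →+ A) : A →+ A where
  toFun x := ∑ i ∈ range p, s^[i] x
  map_zero' := by simp [iterate_map_zero]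
  map_add' x y := by simp [iterate_map_add, sum_add_distrib]

@[simp] theorem nrm_apply (p : ℕ) (s : A →+ A) (x : A) : nrm p s x = ∑ i ∈ range p, s^[i] x := rfl

/-- `s - 1`. -/
def sm1 (s : A →+ A) : A →+ A := s - AddMonoidHom.id A

@[simp] theorem sm1_apply (s : A →+ A) (x : A) : sm1 s x = s x - x := rfl

/-- multiplication by `n`. -/
def mulN (A : Type*) [AddCommGroup A] (n : ℕ) : A →+ A := n • AddMonoidHom.id A

@[simp] theorem mulN_apply (n : ℕ) (x : A) : mulN A n x = n • x := rfl

theorem sm1_nrm (p : ℕ) (s : A →+ A) (hs : ∀ x, s^[p] x = x) (x : A) : sm1 s (nrm p s x) = 0 := by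
  rw [sm1_apply, nrm_apply, map_sum, ← sum_sub_distrib]
  have h := Finset.sum_range_sub (fun i => s^[i] x) p
  simp only [Function.iterate_succ_apply', Function.iterate_zero, id_eq, hs, sub_self] at h
  exact h

theorem nrm_sm1 (p : ℕ) (s : A →+ A) (hs : ∀ x, s^[p] x = x) (x : A) : nrm p s (sm1 s x) = 0 := by
  rw [nrm_apply, sm1_apply]
  have h := Finset.sum_range_sub (fun i => s^[i] x) p
  simp only [Function.iterate_zero, id_eq, hs, sub_self] at h
  rw [← h]
  refine Finset.sum_congr rfl fun i _ => ?_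
  rw [iterate_map_sub, ← Function.iterate_succ_apply]

/-- The restriction of an endomorphism to a stable subgroup. -/
def restr (f : A →+ A) (B : AddSubgroup A) (hB : ∀ x ∈ B, f x ∈ B) : B →+ B :=
  (f.comp B.subtype).codRestrict B (fun x => hB x x.2)

@[simp] theorem restr_apply (f : A →+ A) (B : AddSubgroup A) (hB : ∀ x ∈ B, f x ∈ B) (x : B) :
    (restr f B hB x : A) = f x := rfl

/-- `τ = s - 1` restricted to `B = (s-1)A`. -/
def tau (s : A →+ A) : (sm1 s).range →+ (sm1 s).range :=
  restr (sm1 s) (sm1 s).range (fun x _ => ⟨x, rfl⟩)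

@[simp] theorem tau_apply (s : A →+ A) (b : (sm1 s).range) : (tau s b : A) = s b - b := rfl

end Fermat.Agent.S55.HQ
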