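import Fermat.Agent.S55.HQ.FG

/-!
# S55-HQ : multiplicative forms of (HQ1), (HQ2) (for `Kˣ`, groups of `T`-units, ...)

`M` a commutative group, `s : M →* M` with `s^[p] = id` (the action of a generator of a cyclic
group `C` of prime order `p`).  Everything is a natural number, `0` meaning "infinite".
-/

namespace Fermat.Agent.S55.HQ

open Finset

variable {M : Type*} [CommGroup M]

/-- `x ↦ s x / x`. -/
def sd1 (s : M →* M) : M →* M := s / MonoidHom.id M

@[simp] theorem sd1_apply (s : M →* M) (x : M) : sd1 s x = s x / x := rfl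

/-- The fixed points `M^C`. -/
def fixM (s : M →* M) : Subgroup M := (sd1 s).ker

theorem mem_fixM {s : M →* M} {x : M} : x ∈ fixM s ↔ s x = x := by
  simp [fixM, MonoidHom.mem_ker, div_eq_one]

/-- The norm `x ↦ ∏_{i<p} s^i x`. -/
def nrmM (p : ℕ) (s : M →* M) : M →* M where
  toFun x := ∏ i ∈ range p, s^[i] x
  map_one' := by simp [iterate_map_one]
  map_mul' x y := by simp [iterate_map_mul, prod_mul_distrib]

@[simp] theorem nrmM_apply (p : ℕ) (s : M →* M) (x : M) :
    nrmM p s x = ∏ i ∈ range p, s^[i] x := rfl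

/-- `[M^C : N M]`. -/
noncomputable def hM0 (p : ℕ) (s : M →* M) : ℕ := (nrmM p s).range.relIndex (fixM s)

/-- `[ker N : (s-1) M]` (`= #H^1(C, M)`). -/
noncomputable def hM1 (p : ℕ) (s : M →* M) : ℕ := (sd1 s).range.relIndex (nrmM p s).ker

/-- `[B : B^n]`. -/
noncomputable def powIdx (n : ℕ) (B : Subgroup M) : ℕ :=
  (B.map (powMonoidHom n : M →* M)).relIndex B

/-- `#B[n]`. -/
noncomputable def torCard (n : ℕ) (B : Subgroup M) : ℕ :=
  Nat.card ↥(B ⊓ (powMonoidHom n : M →* M).ker)


/-! ### Translation along `Additive M` -/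

private theorem chevalleymul_hnum (f g : M →* M) :
    hnum (MonoidHom.toAdditive f) (MonoidHom.toAdditive g) = g.range.relIndex f.ker := rfl

private theorem chevalleymul_pow (n : ℕ) :
    MonoidHom.toAdditive (powMonoidHom n : M →* M) = mulN (Additive M) n := rfl

private theorem chevalleymul_one : MonoidHom.toAdditive (1 : M →* M) = 0 := rfl

private theorem chevalleymul_sd1 (s : M →* M) :
    MonoidHom.toAdditive (sd1 s) = sm1 (MonoidHom.toAdditive s) := rfl

private theorem chevalleymul_iterate (s : M →* M) (i : ℕ) (x : M) :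
    (MonoidHom.toAdditive s)^[i] (Additive.ofMul x) = Additive.ofMul (s^[i] x) := by
  induction i generalizing x with
  | zero => rfl
  | succ i ih => rw [Function.iterate_succ_apply, Function.iterate_succ_apply]; exact ih (s x)

private theorem chevalleymul_nrm (p : ℕ) (s : M →* M) :
    MonoidHom.toAdditive (nrmM p s) = nrm p (MonoidHom.toAdditive s) := by
  refine DFunLike.ext _ _ fun x => ?_
  induction x using Additive.rec with
  | ofMul x =>
    rw [nrm_apply, sum_congr rfl (fun i _ => chevalleymul_iterate s i x), ← ofMul_prod]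
    rfl

private theorem chevalleymul_iterate_id (p : ℕ) (s : M →* M) (hs : ∀ x, s^[p] x = x)
    (x : Additive M) : (MonoidHom.toAdditive s)^[p] x = x := by
  induction x using Additive.rec with
  | ofMul x => rw [chevalleymul_iterate, hs]

private theorem chevalleymul_hM0 (p : ℕ) (s : M →* M) :
    hnum (sm1 (MonoidHom.toAdditive s)) (nrm p (MonoidHom.toAdditive s)) = hM0 p s := by
  rw [← chevalleymul_sd1, ← chevalleymul_nrm, chevalleymul_hnum]; rfl

private theorem chevalleymul_hM1 (p : ℕ) (s : M →* M) :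
    hnum (nrm p (MonoidHom.toAdditive s)) (sm1 (MonoidHom.toAdditive s)) = hM1 p s := by
  rw [← chevalleymul_sd1, ← chevalleymul_nrm, chevalleymul_hnum]; rfl

/-- additive: `[B : nB]` computed on `B` as a group of its own. -/
private theorem chevalleymul_hnum_sub_left {A : Type*} [AddCommGroup A] (n : ℕ)
    (B : AddSubgroup A) : hnum 0 (mulN B n) = (B.map (mulN A n)).relIndex B := by
  rw [hnum_zero_left, AddSubgroup.relIndex]
  congr 1
  ext x
  rw [AddSubgroup.mem_addSubgroupOf, AddSubgroup.mem_map, AddMonoidHom.mem_range]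
  constructor
  · rintro ⟨y, rfl⟩
    exact ⟨y, y.2, rfl⟩
  · rintro ⟨y, hy, hyx⟩
    exact ⟨⟨y, hy⟩, Subtype.ext hyx⟩

/-- additive: `#B[n]` computed on `B` as a group of its own. -/
private theorem chevalleymul_hnum_sub_right {A : Type*} [AddCommGroup A] (n : ℕ)
    (B : AddSubgroup A) : hnum (mulN B n) 0 = Nat.card ↥(B ⊓ (mulN A n).ker) := by
  rw [hnum_zero_right]
  refine Nat.card_congr
    { toFun := fun x => ⟨x.1.1, x.1.2, congrArg Subtype.val x.2⟩
      invFun := fun x => ⟨⟨x.1, x.2.1⟩, Subtype.ext x.2.2⟩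
      left_inv := fun x => rfl
      right_inv := fun x => rfl }

private theorem chevalleymul_powIdx (n : ℕ) (B : Subgroup M) :
    hnum 0 (mulN (Subgroup.toAddSubgroup B) n) = powIdx n B := by
  rw [chevalleymul_hnum_sub_left]; rfl

private theorem chevalleymul_torCard (n : ℕ) (B : Subgroup M) :
    hnum (mulN (Subgroup.toAddSubgroup B) n) 0 = torCard n B := by
  rw [chevalleymul_hnum_sub_right]; rfl

theorem powIdx_top (n : ℕ) : powIdx n (⊤ : Subgroup M) = (powMonoidHom n : M →* M).range.index := by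
  rw [powIdx, Subgroup.relIndex_top_right, MonoidHom.range_eq_map]

theorem torCard_top (n : ℕ) :
    torCard n (⊤ : Subgroup M) = Nat.card (powMonoidHom n : M →* M).ker := by
  rw [torCard, top_inf_eq]

/-- `powIdx`, `torCard` of a subgroup computed on the subgroup as a group of its own. -/
theorem powIdx_eq_top (n : ℕ) (B : Subgroup M) : powIdx n B = powIdx n (⊤ : Subgroup B) := by
  rw [powIdx_top, powIdx, Subgroup.relIndex]
  congr 1
  ext x
  rw [Subgroup.mem_subgroupOf, Subgroup.mem_map, MonoidHom.mem_range]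
  constructor
  · rintro ⟨y, hy, hyx⟩
    exact ⟨⟨y, hy⟩, Subtype.ext hyx⟩
  · rintro ⟨y, rfl⟩
    exact ⟨y, y.2, rfl⟩

theorem torCard_eq_top (n : ℕ) (B : Subgroup M) : torCard n B = torCard n (⊤ : Subgroup B) := by
  rw [torCard_top, torCard]
  refine Nat.card_congr
    { toFun := fun x => ⟨⟨x.1, x.2.1⟩, Subtype.ext x.2.2⟩
      invFun := fun x => ⟨x.1.1, x.1.2, congrArg Subtype.val x.2⟩
      left_inv := fun x => rfl
      right_inv := fun x => rfl }

/-- invariance under isomorphism. -/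
theorem powIdx_top_congr {M' : Type*} [CommGroup M'] (e : M ≃* M') (n : ℕ) :
    powIdx n (⊤ : Subgroup M) = powIdx n (⊤ : Subgroup M') := by
  rw [powIdx_top, powIdx_top, ← Subgroup.index_map_equiv _ e]
  congr 1
  ext x
  rw [Subgroup.mem_map, MonoidHom.mem_range]
  constructor
  · rintro ⟨_, ⟨y, rfl⟩, rfl⟩
    exact ⟨e y, (map_pow e y n).symm⟩
  · rintro ⟨y, rfl⟩
    refine ⟨(e.symm y) ^ n, ⟨e.symm y, rfl⟩, ?_⟩
    change e ((e.symm y) ^ n) = y ^ n
    rw [map_pow, e.apply_symm_apply]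

theorem torCard_top_congr {M' : Type*} [CommGroup M'] (e : M ≃* M') (n : ℕ) :
    torCard n (⊤ : Subgroup M) = torCard n (⊤ : Subgroup M') := by
  rw [torCard_top, torCard_top]
  refine Nat.card_congr
    { toFun := fun x => ⟨e x.1, ?_⟩
      invFun := fun x => ⟨e.symm x.1, ?_⟩
      left_inv := fun x => Subtype.ext (e.symm_apply_apply x.1)
      right_inv := fun x => Subtype.ext (e.apply_symm_apply x.1) }
  · have hx : x.1 ^ n = 1 := x.2
    change (e x.1) ^ n = 1
    rw [← map_pow, hx, map_one]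
  · have hx : x.1 ^ n = 1 := x.2
    change (e.symm x.1) ^ n = 1
    rw [← map_pow, hx, map_one]

private theorem chevalleymul_powIdx_top (n : ℕ) :
    hnum 0 (mulN (Additive M) n) = powIdx n (⊤ : Subgroup M) := by
  rw [powIdx_top]; exact hnum_zero_left _

private theorem chevalleymul_torCard_top (n : ℕ) :
    hnum (mulN (Additive M) n) 0 = torCard n (⊤ : Subgroup M) := by
  rw [torCard_top]; exact hnum_zero_right _

private theorem chevalleymul_defined (n : ℕ) :
    HQDefined 0 (mulN (Additive M) n) ↔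
      powIdx n (⊤ : Subgroup M) ≠ 0 ∧ torCard n (⊤ : Subgroup M) ≠ 0 := by
  rw [HQDefined, chevalleymul_powIdx_top, chevalleymul_torCard_top]

private theorem chevalleymul_hq (n : ℕ) :
    hq 0 (mulN (Additive M) n) =
      (powIdx n (⊤ : Subgroup M) : ℚ) / (torCard n (⊤ : Subgroup M) : ℚ) := by
  rw [hq, chevalleymul_powIdx_top, chevalleymul_torCard_top]

private theorem chevalleymul_definedh (p : ℕ) (s : M →* M) :
    HQDefined (sm1 (MonoidHom.toAdditive s)) (nrm p (MonoidHom.toAdditive s)) ↔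
      hM0 p s ≠ 0 ∧ hM1 p s ≠ 0 := by
  rw [HQDefined, chevalleymul_hM0, chevalleymul_hM1]

private theorem chevalleymul_hqh (p : ℕ) (s : M →* M) :
    hq (sm1 (MonoidHom.toAdditive s)) (nrm p (MonoidHom.toAdditive s)) =
      (hM0 p s : ℚ) / (hM1 p s : ℚ) := by
  rw [hq, chevalleymul_hM0, chevalleymul_hM1]

private theorem chevalleymul_arith {a b a' b' a'' b'' : ℕ} (hb : b ≠ 0) (hb' : b' ≠ 0)
    (hb'' : b'' ≠ 0) (h : (a : ℚ) / b = (a' : ℚ) / b' * ((a'' : ℚ) / b'')) :
    a * b' * b'' = b * a' * a'' := by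
  have hb1 : (b : ℚ) ≠ 0 := Nat.cast_ne_zero.2 hb
  have hb2 : (b' : ℚ) ≠ 0 := Nat.cast_ne_zero.2 hb'
  have hb3 : (b'' : ℚ) ≠ 0 := Nat.cast_ne_zero.2 hb''
  have : ((a * b' * b'' : ℕ) : ℚ) = ((b * a' * a'' : ℕ) : ℚ) := by
    push_cast
    field_simp at h
    linarith
  exact_mod_cast this

/-- **(HQ2), multiplicative form.**
`[M^C : N M]^(p-1) * #M^C[p]^p * [M : M^p] = [ker N : (s-1)M]^(p-1) * [M^C : (M^C)^p]^p * #M[p]`
and all these numbers are finite (nonzero) as soon as `[M : M^p]` and `#M[p]` are. -/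
theorem chevalley_mul (p : ℕ) [Fact p.Prime] (s : M →* M) (hs : ∀ x, s^[p] x = x)
    (h1 : powIdx p (⊤ : Subgroup M) ≠ 0) (h2 : torCard p (⊤ : Subgroup M) ≠ 0) :
    hM0 p s ≠ 0 ∧ hM1 p s ≠ 0 ∧ powIdx p (fixM s) ≠ 0 ∧ torCard p (fixM s) ≠ 0 ∧
      hM0 p s ^ (p - 1) * torCard p (fixM s) ^ p * powIdx p (⊤ : Subgroup M) =
        hM1 p s ^ (p - 1) * powIdx p (fixM s) ^ p * torCard p (⊤ : Subgroup M) := by
  have hA : HQDefined 0 (mulN (Additive M) p) := (chevalleymul_defined p).2 ⟨h1, h2⟩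
  obtain ⟨hd1, hd2, heq⟩ :=
    chevalley p (MonoidHom.toAdditive s) (chevalleymul_iterate_id p s hs) hA
  have e3 : hnum 0 (mulN (sm1 (MonoidHom.toAdditive s)).ker p) = powIdx p (fixM s) :=
    chevalleymul_powIdx p (fixM s)
  have e4 : hnum (mulN (sm1 (MonoidHom.toAdditive s)).ker p) 0 = torCard p (fixM s) :=
    chevalleymul_torCard p (fixM s)
  rw [chevalleymul_definedh] at hd1
  rw [HQDefined, e3, e4] at hd2
  rw [chevalleymul_hqh, chevalleymul_hq, hq, e3, e4] at heq
  refine ⟨hd1.1, hd1.2, hd2.1, hd2.2, ?_⟩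
  have n1 : (hM1 p s : ℚ) ≠ 0 := Nat.cast_ne_zero.2 hd1.2
  have n2 : (torCard p (fixM s) : ℚ) ≠ 0 := Nat.cast_ne_zero.2 hd2.2
  have n3 : (powIdx p (⊤ : Subgroup M) : ℚ) ≠ 0 := Nat.cast_ne_zero.2 h1
  have n4 : (torCard p (⊤ : Subgroup M) : ℚ) ≠ 0 := Nat.cast_ne_zero.2 h2
  have : ((hM0 p s ^ (p - 1) * torCard p (fixM s) ^ p * powIdx p (⊤ : Subgroup M) : ℕ) : ℚ) =
      ((hM1 p s ^ (p - 1) * powIdx p (fixM s) ^ p * torCard p (⊤ : Subgroup M) : ℕ) : ℚ) := by
    push_cast
    rw [div_pow, div_pow, div_div_eq_mul_div, div_mul_eq_mul_div, div_div,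
      div_eq_div_iff (pow_ne_zero _ n1) (mul_ne_zero (pow_ne_zero _ n2) n3)] at heq
    linarith
  exact_mod_cast this

/-- (HQ1) for `q = q_{0,n}`, multiplicative form: `1 → M' → M → M'' → 1` exact. -/
theorem powIdx_mul_of_exact {M' M'' : Type*} [CommGroup M'] [CommGroup M'']
    (i : M' →* M) (π : M →* M'') (hi : Function.Injective i) (hπ : Function.Surjective π)
    (hex : i.range = π.ker) (n : ℕ)
    (h1' : powIdx n (⊤ : Subgroup M') ≠ 0) (h2' : torCard n (⊤ : Subgroup M') ≠ 0)
    (h1'' : powIdx n (⊤ : Subgroup M'') ≠ 0) (h2'' : torCard n (⊤ : Subgroup M'') ≠ 0) :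
    powIdx n (⊤ : Subgroup M) ≠ 0 ∧ torCard n (⊤ : Subgroup M) ≠ 0 ∧
      powIdx n (⊤ : Subgroup M) * torCard n (⊤ : Subgroup M') * torCard n (⊤ : Subgroup M'') =
        torCard n (⊤ : Subgroup M) * powIdx n (⊤ : Subgroup M') * powIdx n (⊤ : Subgroup M'') := by
  have E : HQExact (MonoidHom.toAdditive i) (MonoidHom.toAdditive π)
      0 (mulN (Additive M') n) 0 (mulN (Additive M) n) 0 (mulN (Additive M'') n) :=
    { inj := hi
      surj := hπ
      exact := congrArg Subgroup.toAddSubgroup hex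
      f_i := fun x => (map_zero (MonoidHom.toAdditive i)).symm
      g_i := fun x => (map_nsmul (MonoidHom.toAdditive i) n x).symm
      π_f := fun x => map_zero (MonoidHom.toAdditive π)
      π_g := fun x => map_nsmul (MonoidHom.toAdditive π) n x
      fg := fun x => rfl
      gf := fun x => nsmul_zero n }
  have d' := (chevalleymul_defined (M := M') n).2 ⟨h1', h2'⟩
  have d'' := (chevalleymul_defined (M := M'') n).2 ⟨h1'', h2''⟩
  have d := (chevalleymul_defined (M := M) n).1 (E.defined_mid d' d'')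
  have heq := E.hq_eq d' d''
  rw [chevalleymul_hq, chevalleymul_hq, chevalleymul_hq] at heq
  exact ⟨d.1, d.2, chevalleymul_arith d.2 h2' h2'' heq⟩

/-- (HQ1) for `h`, multiplicative form: `1 → M' → M → M'' → 1` exact and `s`-equivariant. -/
theorem hM_mul_of_exact {M' M'' : Type*} [CommGroup M'] [CommGroup M'']
    (i : M' →* M) (π : M →* M'') (hi : Function.Injective i) (hπ : Function.Surjective π)
    (hex : i.range = π.ker) (p : ℕ) (s' : M' →* M') (s : M →* M) (s'' : M'' →* M'')
    (hs : ∀ x, s^[p] x = x) (his : ∀ x, s (i x) = i (s' x)) (hπs : ∀ x, π (s x) = s'' (π x))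
    (h0' : hM0 p s' ≠ 0) (h1' : hM1 p s' ≠ 0) (h0'' : hM0 p s'' ≠ 0) (h1'' : hM1 p s'' ≠ 0) :
    hM0 p s ≠ 0 ∧ hM1 p s ≠ 0 ∧
      hM0 p s * hM1 p s' * hM1 p s'' = hM1 p s * hM0 p s' * hM0 p s'' := by
  have hit_i : ∀ (k : ℕ) (x : Additive M'), (MonoidHom.toAdditive s)^[k] (MonoidHom.toAdditive i x) =
      MonoidHom.toAdditive i ((MonoidHom.toAdditive s')^[k] x) := by
    intro k
    induction k with
    | zero => intro x; rfl
    | succ k ih =>
      intro x
      rw [Function.iterate_succ_apply, Function.iterate_succ_apply, ← ih]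
      exact congrArg _ (his x)
  have hit_π : ∀ (k : ℕ) (x : Additive M), MonoidHom.toAdditive π ((MonoidHom.toAdditive s)^[k] x) =
      (MonoidHom.toAdditive s'')^[k] (MonoidHom.toAdditive π x) := by
    intro k
    induction k with
    | zero => intro x; rfl
    | succ k ih =>
      intro x
      rw [Function.iterate_succ_apply, Function.iterate_succ_apply, ih]
      exact congrArg _ (hπs x)
  have hsa := chevalleymul_iterate_id p s hs
  have E : HQExact (MonoidHom.toAdditive i) (MonoidHom.toAdditive π)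
      (sm1 (MonoidHom.toAdditive s')) (nrm p (MonoidHom.toAdditive s'))
      (sm1 (MonoidHom.toAdditive s)) (nrm p (MonoidHom.toAdditive s))
      (sm1 (MonoidHom.toAdditive s'')) (nrm p (MonoidHom.toAdditive s'')) :=
    { inj := hi
      surj := hπ
      exact := congrArg Subgroup.toAddSubgroup hex
      f_i := fun x => by
        rw [sm1_apply, sm1_apply, map_sub]
        exact congrArg (· - MonoidHom.toAdditive i x) (his x)
      g_i := fun x => by
        rw [nrm_apply, nrm_apply, map_sum]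
        exact sum_congr rfl fun k _ => hit_i k x
      π_f := fun x => by
        rw [sm1_apply, sm1_apply, map_sub]
        exact congrArg (· - MonoidHom.toAdditive π x) (hπs x)
      π_g := fun x => by
        rw [nrm_apply, nrm_apply, map_sum]
        exact sum_congr rfl fun k _ => hit_π k x
      fg := sm1_nrm p _ hsa
      gf := nrm_sm1 p _ hsa }
  have d' := (chevalleymul_definedh p s').2 ⟨h0', h1'⟩
  have d'' := (chevalleymul_definedh p s'').2 ⟨h0'', h1''⟩
  have d := (chevalleymul_definedh p s).1 (E.defined_mid d' d'')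
  have heq := E.hq_eq d' d''
  rw [chevalleymul_hqh, chevalleymul_hqh, chevalleymul_hqh] at heq
  exact ⟨d.1, d.2, chevalleymul_arith d.2 h1' h1'' heq⟩

/-- finite groups: `[M : M^n] = #M[n]` and `[M^C : N M] = [ker N : (s-1)M]`. -/
theorem powIdx_eq_torCard_of_finite [Finite M] (n : ℕ) :
    powIdx n (⊤ : Subgroup M) = torCard n (⊤ : Subgroup M) ∧ torCard n (⊤ : Subgroup M) ≠ 0 := by
  have : Finite (Additive M) := ‹Finite M›
  obtain ⟨hd, heq⟩ := hq_of_finite (0 : Additive M →+ Additive M) (mulN (Additive M) n)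
    (fun x => rfl) (fun x => nsmul_zero n)
  rw [chevalleymul_defined] at hd
  rw [chevalleymul_hq, div_eq_one_iff_eq (Nat.cast_ne_zero.2 hd.2)] at heq
  exact ⟨by exact_mod_cast heq, hd.2⟩

theorem hM0_eq_hM1_of_finite [Finite M] (p : ℕ) (s : M →* M) (hs : ∀ x, s^[p] x = x) :
    hM0 p s = hM1 p s ∧ hM1 p s ≠ 0 := by
  have : Finite (Additive M) := ‹Finite M›
  have hsa := chevalleymul_iterate_id p s hs
  obtain ⟨hd, heq⟩ := hq_of_finite (sm1 (MonoidHom.toAdditive s)) (nrm p (MonoidHom.toAdditive s))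
    (sm1_nrm p _ hsa) (nrm_sm1 p _ hsa)
  rw [chevalleymul_definedh] at hd
  rw [chevalleymul_hqh, div_eq_one_iff_eq (Nat.cast_ne_zero.2 hd.2)] at heq
  exact ⟨by exact_mod_cast heq, hd.2⟩

/-- finitely generated groups: `[M : M^n] = n ^ rank * #M[n]`. -/
theorem powIdx_of_fg [Group.FG M] (n : ℕ) (hn : n ≠ 0) :
    torCard n (⊤ : Subgroup M) ≠ 0 ∧
      powIdx n (⊤ : Subgroup M) =
        n ^ Module.finrank ℤ (Additive M) * torCard n (⊤ : Subgroup M) := by
  have : Module.Finite ℤ (Additive M) := Module.Finite.iff_addGroup_fg.2 inferInstance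
  have hd := (chevalleymul_defined (M := M) n).1 (hq_of_fg (Additive M) n hn).1
  refine ⟨hd.2, ?_⟩
  have h := index_range_mulN_of_fg (Additive M) n hn
  rw [← hnum_zero_left, ← hnum_zero_right, chevalleymul_powIdx_top, chevalleymul_torCard_top] at h
  exact h

end Fermat.Agent.S55.HQ
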