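import Mathlib

/-!
# S55-HQ : basic API for unbundled multiplicative 2-cocycles

`groupCohomology.IsMulCocycle₂ f : f (g*h, j) * f (g, h) = g • f (h, j) * f (g, h*j)`,
`groupCohomology.IsMulCoboundary₂ f : ∃ x, ∀ g h, g • x h / x (g*h) * x g = f (g, h)`.
-/

namespace Fermat.Agent.S55.HQ

open groupCohomology

variable {G M : Type*} [Group G] [CommGroup M] [MulDistribMulAction G M]

/-- The coboundary of a 1-cochain. -/
def dOne (x : G → M) : G × G → M := fun gh => gh.1 • x gh.2 / x (gh.1 * gh.2) * x gh.1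

@[simp] theorem dOne_apply (x : G → M) (g h : G) : dOne x (g, h) = g • x h / x (g * h) * x g := rfl

theorem isMulCoboundary₂_iff (f : G × G → M) : IsMulCoboundary₂ f ↔ ∃ x : G → M, f = dOne x := by
  constructor
  · rintro ⟨x, hx⟩
    exact ⟨x, funext fun ⟨g, h⟩ => (hx g h).symm⟩
  · rintro ⟨x, rfl⟩
    exact ⟨x, fun _ _ => rfl⟩

theorem isMulCoboundary₂_dOne (x : G → M) : IsMulCoboundary₂ (dOne x) := ⟨x, fun _ _ => rfl⟩

theorem isMulCocycle₂_dOne (x : G → M) : IsMulCocycle₂ (dOne x) := by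
  intro g h j
  simp only [dOne_apply, smul_mul', smul_div', mul_smul, mul_assoc]
  generalize g • h • x j = a
  generalize x (g * (h * j)) = b
  generalize x (g * h) = c
  generalize g • x h = d
  generalize x g = e
  generalize g • x (h * j) = k
  simp only [div_eq_mul_inv]
  calc a * b⁻¹ * (c * (d * c⁻¹ * e)) = a * b⁻¹ * d * e * (c * c⁻¹) := by
        simp only [mul_comm, mul_left_comm, mul_assoc]
    _ = a * b⁻¹ * d * e * (k * k⁻¹) := by rw [mul_inv_cancel, mul_inv_cancel]
    _ = a * k⁻¹ * (d * (k * b⁻¹ * e)) := by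
        simp only [mul_comm, mul_left_comm, mul_assoc]

theorem isMulCocycle₂_of_isMulCoboundary₂ {f : G × G → M} (hf : IsMulCoboundary₂ f) :
    IsMulCocycle₂ f := by
  obtain ⟨x, rfl⟩ := (isMulCoboundary₂_iff f).1 hf
  exact isMulCocycle₂_dOne x

theorem dOne_mul (x y : G → M) : dOne (x * y) = dOne x * dOne y := by
  funext ⟨g, h⟩
  simp only [dOne_apply, Pi.mul_apply, smul_mul']
  rw [mul_div_mul_comm, mul_mul_mul_comm]

theorem dOne_inv (x : G → M) : dOne x⁻¹ = (dOne x)⁻¹ := by
  funext ⟨g, h⟩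
  simp only [dOne_apply, Pi.inv_apply, smul_inv']
  rw [mul_inv, inv_div_inv, inv_div]

theorem dOne_one : dOne (1 : G → M) = 1 := by
  funext ⟨g, h⟩
  simp [dOne_apply]

theorem isMulCocycle₂_one : IsMulCocycle₂ (1 : G × G → M) := by
  intro g h j
  simp

theorem isMulCocycle₂_mul {f f' : G × G → M} (hf : IsMulCocycle₂ f) (hf' : IsMulCocycle₂ f') :
    IsMulCocycle₂ (f * f') := by
  intro g h j
  simp only [Pi.mul_apply, smul_mul']
  rw [mul_mul_mul_comm, hf g h j, hf' g h j, mul_mul_mul_comm]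

theorem isMulCocycle₂_inv {f : G × G → M} (hf : IsMulCocycle₂ f) : IsMulCocycle₂ f⁻¹ := by
  intro g h j
  simp only [Pi.inv_apply, smul_inv']
  rw [← mul_inv, ← mul_inv, hf g h j]

theorem isMulCocycle₂_div {f f' : G × G → M} (hf : IsMulCocycle₂ f) (hf' : IsMulCocycle₂ f') :
    IsMulCocycle₂ (f / f') := by
  rw [div_eq_mul_inv]
  exact isMulCocycle₂_mul hf (isMulCocycle₂_inv hf')

theorem isMulCocycle₂_pow {f : G × G → M} (hf : IsMulCocycle₂ f) (n : ℕ) :
    IsMulCocycle₂ (f ^ n) := by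
  intro g h j
  simp only [Pi.pow_apply, smul_pow']
  rw [← mul_pow, ← mul_pow, hf g h j]

theorem isMulCocycle₂_zpow {f : G × G → M} (hf : IsMulCocycle₂ f) (n : ℤ) :
    IsMulCocycle₂ (f ^ n) := by
  cases n with
  | ofNat n => simpa using isMulCocycle₂_pow hf n
  | negSucc n =>
    rw [zpow_negSucc]
    exact isMulCocycle₂_inv (isMulCocycle₂_pow hf (n + 1))

theorem isMulCoboundary₂_one : IsMulCoboundary₂ (1 : G × G → M) := by
  exact (isMulCoboundary₂_iff _).2 ⟨1, dOne_one.symm⟩

theorem isMulCoboundary₂_mul {f f' : G × G → M} (hf : IsMulCoboundary₂ f)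
    (hf' : IsMulCoboundary₂ f') : IsMulCoboundary₂ (f * f') := by
  obtain ⟨x, rfl⟩ := (isMulCoboundary₂_iff f).1 hf
  obtain ⟨y, rfl⟩ := (isMulCoboundary₂_iff f').1 hf'
  exact (isMulCoboundary₂_iff _).2 ⟨x * y, (dOne_mul x y).symm⟩

theorem isMulCoboundary₂_inv {f : G × G → M} (hf : IsMulCoboundary₂ f) :
    IsMulCoboundary₂ f⁻¹ := by
  obtain ⟨x, rfl⟩ := (isMulCoboundary₂_iff f).1 hf
  exact (isMulCoboundary₂_iff _).2 ⟨x⁻¹, (dOne_inv x).symm⟩

theorem isMulCoboundary₂_div {f f' : G × G → M} (hf : IsMulCoboundary₂ f)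
    (hf' : IsMulCoboundary₂ f') : IsMulCoboundary₂ (f / f') := by
  rw [div_eq_mul_inv]
  exact isMulCoboundary₂_mul hf (isMulCoboundary₂_inv hf')

theorem isMulCoboundary₂_pow {f : G × G → M} (hf : IsMulCoboundary₂ f) (n : ℕ) :
    IsMulCoboundary₂ (f ^ n) := by
  induction n with
  | zero => simpa using (isMulCoboundary₂_one (G := G) (M := M))
  | succ n ih =>
    rw [pow_succ]
    exact isMulCoboundary₂_mul ih hf

theorem isMulCoboundary₂_zpow {f : G × G → M} (hf : IsMulCoboundary₂ f) (n : ℤ) :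
    IsMulCoboundary₂ (f ^ n) := by
  cases n with
  | ofNat n => simpa using isMulCoboundary₂_pow hf n
  | negSucc n =>
    rw [zpow_negSucc]
    exact isMulCoboundary₂_inv (isMulCoboundary₂_pow hf (n + 1))

/-- If `f / f'` and `f'` are coboundaries so is `f`. -/
theorem isMulCoboundary₂_of_div {f f' : G × G → M} (h : IsMulCoboundary₂ (f / f'))
    (hf' : IsMulCoboundary₂ f') : IsMulCoboundary₂ f := by
  have := isMulCoboundary₂_mul h hf'
  rwa [div_mul_cancel] at this

/-- Bezout: `f^a` and `f^b` coboundaries with `a`, `b` coprime => `f` coboundary. -/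
theorem isMulCoboundary₂_of_pow_of_pow {f : G × G → M} {a b : ℕ} (hab : Nat.Coprime a b)
    (ha : IsMulCoboundary₂ (f ^ a)) (hb : IsMulCoboundary₂ (f ^ b)) : IsMulCoboundary₂ f := by
  have h1 : (a : ℤ) * Nat.gcdA a b + (b : ℤ) * Nat.gcdB a b = 1 := by
    have := Nat.gcd_eq_gcd_ab a b
    rw [hab.gcd_eq_one] at this
    exact_mod_cast this.symm
  have h2 : f = (f ^ a) ^ (Nat.gcdA a b) * (f ^ b) ^ (Nat.gcdB a b) := by
    rw [← zpow_natCast f a, ← zpow_natCast f b, ← zpow_mul, ← zpow_mul, ← zpow_add, h1, zpow_one]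
  rw [h2]
  exact isMulCoboundary₂_mul (isMulCoboundary₂_zpow ha _) (isMulCoboundary₂_zpow hb _)

section functoriality

variable {G' M' : Type*} [Group G'] [CommGroup M'] [MulDistribMulAction G' M]
  [MulDistribMulAction G M']

/-- Pull-back of a 2-cochain along `φ : G' → G`. -/
def pull (φ : G' →* G) (f : G × G → M) : G' × G' → M := fun x => f (φ x.1, φ x.2)

omit [MulDistribMulAction G M] [MulDistribMulAction G' M] [MulDistribMulAction G M'] in
@[simp] theorem pull_apply (φ : G' →* G) (f : G × G → M) (g h : G') :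
    pull φ f (g, h) = f (φ g, φ h) := rfl

theorem isMulCocycle₂_pull (φ : G' →* G) (hφ : ∀ (g : G') (m : M), g • m = φ g • m)
    {f : G × G → M} (hf : IsMulCocycle₂ f) : IsMulCocycle₂ (pull φ f) := by
  intro g h j
  simp only [pull_apply, map_mul, hφ]
  exact hf (φ g) (φ h) (φ j)

theorem isMulCoboundary₂_pull (φ : G' →* G) (hφ : ∀ (g : G') (m : M), g • m = φ g • m)
    {f : G × G → M} (hf : IsMulCoboundary₂ f) : IsMulCoboundary₂ (pull φ f) := by
  obtain ⟨x, hx⟩ := hf
  refine ⟨fun g => x (φ g), fun g h => ?_⟩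
  simp only [pull_apply, map_mul, hφ]
  exact hx (φ g) (φ h)

omit [MulDistribMulAction G M] [MulDistribMulAction G' M] [MulDistribMulAction G M'] in
theorem pull_mul (φ : G' →* G) (f f' : G × G → M) : pull φ (f * f') = pull φ f * pull φ f' := rfl

omit [MulDistribMulAction G M] [MulDistribMulAction G' M] [MulDistribMulAction G M'] in
theorem pull_div (φ : G' →* G) (f f' : G × G → M) : pull φ (f / f') = pull φ f / pull φ f' := rfl

omit [MulDistribMulAction G M] [MulDistribMulAction G' M] [MulDistribMulAction G M'] in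
theorem pull_pow (φ : G' →* G) (f : G × G → M) (n : ℕ) : pull φ (f ^ n) = pull φ f ^ n := rfl

/-- Push-forward along an equivariant homomorphism `ι : M → M'`. -/
theorem isMulCocycle₂_map (ι : M →* M') (hι : ∀ (g : G) (m : M), ι (g • m) = g • ι m)
    {f : G × G → M} (hf : IsMulCocycle₂ f) : IsMulCocycle₂ (fun x => ι (f x)) := by
  intro g h j
  simp only [← hι, ← map_mul]
  rw [hf g h j]

theorem isMulCoboundary₂_map (ι : M →* M') (hι : ∀ (g : G) (m : M), ι (g • m) = g • ι m)
    {f : G × G → M} (hf : IsMulCoboundary₂ f) : IsMulCoboundary₂ (fun x => ι (f x)) := by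
  obtain ⟨x, hx⟩ := hf
  refine ⟨fun g => ι (x g), fun g h => ?_⟩
  simp only [← hι, ← map_mul, ← map_div]
  rw [hx g h]

end functoriality

/-- Every 2-cocycle is cohomologous to a normalised one. -/
theorem exists_normalized {f : G × G → M} (hf : IsMulCocycle₂ f) :
    ∃ f' : G × G → M, IsMulCocycle₂ f' ∧ IsMulCoboundary₂ (f / f') ∧
      (∀ g, f' (1, g) = 1) ∧ (∀ g, f' (g, 1) = 1) := by
  have h1 : ∀ g, f (1, g) = f (1, 1) := by
    intro g
    have := hf 1 1 g
    simp only [one_mul, one_smul] at this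
    exact (mul_left_cancel this).symm
  have h2 : ∀ g, f (g, 1) = g • f (1, 1) := by
    intro g
    have := hf g 1 1
    simp only [mul_one] at this
    exact mul_right_cancel this
  refine ⟨f / dOne (fun _ => f (1, 1)), isMulCocycle₂_div hf (isMulCocycle₂_dOne _), ?_, ?_, ?_⟩
  · rw [div_div_cancel]
    exact isMulCoboundary₂_dOne _
  · intro g
    simp [dOne_apply, h1]
  · intro g
    simp only [Pi.div_apply, dOne_apply, h2 g]
    rw [div_mul_cancel, div_self']

/-- A finite group of order `n` kills `H^2`. -/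
theorem isMulCoboundary₂_pow_card [Finite G] {f : G × G → M} (hf : IsMulCocycle₂ f) :
    IsMulCoboundary₂ (f ^ Nat.card G) := by
  classical
  have : Fintype G := Fintype.ofFinite G
  rw [Nat.card_eq_fintype_card]
  refine ⟨fun g => ∏ j : G, f (g, j), fun g h => ?_⟩
  have key : (∏ j : G, f (g * h, j)) * f (g, h) ^ Fintype.card G
      = g • (∏ j : G, f (h, j)) * ∏ j : G, f (g, j) := by
    have e1 : ∏ j : G, (f (g * h, j) * f (g, h)) = ∏ j : G, (g • f (h, j) * f (g, h * j)) :=
      Finset.prod_congr rfl fun j _ => hf g h j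
    rw [Finset.prod_mul_distrib, Finset.prod_mul_distrib, Finset.prod_const, Finset.card_univ]
      at e1
    rw [e1, Finset.smul_prod']
    congr 1
    exact Fintype.prod_equiv (Equiv.mulLeft h) _ _ fun j => rfl
  simp only [Pi.pow_apply]
  rw [div_mul_eq_mul_div, div_eq_iff_eq_mul, ← key, mul_comm]

end Fermat.Agent.S55.HQ
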