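import Fermat.Agent.S55.HQ.Cocycle

/-!
# S55-HQ : the cyclic cocycle `c(χ, b)`

`χ : G →* Multiplicative (ZMod n)`, `b : M` fixed by `G`.  With `χ~ g ∈ {0, ..., n-1}` the lift of
`χ g`:  `c(χ,b)(g,h) = b ^ ((χ~ g + χ~ h - χ~ (g h)) / n) = b` if `χ~ g + χ~ h ≥ n`, `1` otherwise.
-/

namespace Fermat.Agent.S55.HQ

open groupCohomology

variable {G M : Type*} [Group G] [CommGroup M] [MulDistribMulAction G M]

/-- The lift `χ~ g ∈ {0, ..., n-1}`. -/
def lft {n : ℕ} (χ : G →* Multiplicative (ZMod n)) (g : G) : ℕ := (Multiplicative.toAdd (χ g)).val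

/-- The cyclic cocycle `c(χ, b)`. -/
def cyc {n : ℕ} (χ : G →* Multiplicative (ZMod n)) (b : M) : G × G → M :=
  fun x => if n ≤ lft χ x.1 + lft χ x.2 then b else 1

omit [MulDistribMulAction G M] in
theorem cyc_apply {n : ℕ} (χ : G →* Multiplicative (ZMod n)) (b : M) (g h : G) :
    cyc χ b (g, h) = if n ≤ lft χ g + lft χ h then b else 1 := rfl

variable {n : ℕ} [NeZero n]

theorem lft_lt (χ : G →* Multiplicative (ZMod n)) (g : G) : lft χ g < n := by
  exact ZMod.val_lt _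

theorem lft_mul (χ : G →* Multiplicative (ZMod n)) (g h : G) :
    lft χ (g * h) = if n ≤ lft χ g + lft χ h then lft χ g + lft χ h - n else lft χ g + lft χ h := by
  unfold lft
  rw [map_mul, toAdd_mul]
  split_ifs with h1
  · exact ZMod.val_add_of_le h1
  · exact ZMod.val_add_of_lt (not_le.mp h1)

/-- the carry, as an integer. -/
def cycCar (χ : G →* Multiplicative (ZMod n)) (g h : G) : ℤ :=
  if n ≤ lft χ g + lft χ h then 1 else 0

theorem cyc_car_spec (χ : G →* Multiplicative (ZMod n)) (g h : G) :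
    (n : ℤ) * cycCar χ g h = (lft χ g : ℤ) + lft χ h - lft χ (g * h) := by
  rw [lft_mul, cycCar]
  split_ifs with h1
  · push_cast [Nat.cast_sub h1]; ring
  · push_cast; ring

omit [MulDistribMulAction G M] in
theorem cyc_eq_zpow_car (χ : G →* Multiplicative (ZMod n)) (b : M) (g h : G) :
    cyc χ b (g, h) = b ^ cycCar χ g h := by
  rw [cyc_apply, cycCar]
  split_ifs <;> simp

theorem cyc_dOne_zpow {b : M} (hb : ∀ g : G, g • b = b) (e : G → ℤ) (g h : G) :
    g • (b ^ e h) / b ^ e (g * h) * b ^ e g = b ^ (e h - e (g * h) + e g) := by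
  rw [smul_zpow', hb, zpow_add, zpow_sub, div_eq_mul_inv]

/-- `c(χ,b)(g,h) = b ^ ((χ~ g + χ~ h - χ~(gh)) / n)`. -/
theorem cyc_eq_pow (χ : G →* Multiplicative (ZMod n)) (b : M) (g h : G) :
    cyc χ b (g, h) = b ^ ((lft χ g + lft χ h - lft χ (g * h)) / n) := by
  have hn : 0 < n := Nat.pos_of_ne_zero (NeZero.ne n)
  rw [cyc_apply, lft_mul]
  split_ifs with h1
  · have : lft χ g + lft χ h - (lft χ g + lft χ h - n) = n := by omega
    rw [this, Nat.div_self hn, pow_one]
  · simp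

theorem isMulCocycle₂_cyc (χ : G →* Multiplicative (ZMod n)) {b : M} (hb : ∀ g : G, g • b = b) :
    IsMulCocycle₂ (cyc χ b) := by
  intro g h j
  simp only [cyc_eq_zpow_car]
  rw [smul_zpow', hb, ← zpow_add, ← zpow_add]
  congr 1
  have hn : (n : ℤ) ≠ 0 := by exact_mod_cast NeZero.ne n
  apply mul_left_cancel₀ hn
  rw [mul_add, mul_add, cyc_car_spec, cyc_car_spec, cyc_car_spec, cyc_car_spec, mul_assoc]
  ring

theorem cyc_one_right (χ : G →* Multiplicative (ZMod n)) : cyc χ (1 : M) = 1 := by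
  funext x
  simp [cyc]

theorem cyc_mul_right (χ : G →* Multiplicative (ZMod n)) (b b' : M) :
    cyc χ (b * b') = cyc χ b * cyc χ b' := by
  funext x
  simp only [cyc, Pi.mul_apply]
  split_ifs <;> simp

theorem cyc_inv_right (χ : G →* Multiplicative (ZMod n)) (b : M) : cyc χ b⁻¹ = (cyc χ b)⁻¹ := by
  funext x
  simp only [cyc, Pi.inv_apply]
  split_ifs <;> simp

theorem cyc_pow_right (χ : G →* Multiplicative (ZMod n)) (b : M) (k : ℕ) :
    cyc χ (b ^ k) = cyc χ b ^ k := by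
  funext x
  simp only [cyc, Pi.pow_apply]
  split_ifs <;> simp

theorem cyc_zpow_right (χ : G →* Multiplicative (ZMod n)) (b : M) (k : ℤ) :
    cyc χ (b ^ k) = cyc χ b ^ k := by
  funext x
  simp only [cyc, Pi.pow_apply]
  split_ifs <;> simp

theorem cyc_one_left (b : M) : cyc (1 : G →* Multiplicative (ZMod n)) b = 1 := by
  funext x
  have hn : 0 < n := Nat.pos_of_ne_zero (NeZero.ne n)
  simp [cyc, lft, hn.ne']

/-- the carry of `χ~ g + χ'~ g`. -/
theorem cyc_exists_carry (χ χ' : G →* Multiplicative (ZMod n)) (g : G) :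
    ∃ t : ℤ, (n : ℤ) * t = (lft χ g : ℤ) + lft χ' g - lft (χ * χ') g := by
  unfold lft
  rw [MonoidHom.mul_apply, toAdd_mul]
  by_cases h1 : n ≤ (Multiplicative.toAdd (χ g)).val + (Multiplicative.toAdd (χ' g)).val
  · refine ⟨1, ?_⟩
    rw [ZMod.val_add_of_le h1]
    push_cast [Nat.cast_sub h1]; ring
  · refine ⟨0, ?_⟩
    rw [ZMod.val_add_of_lt (not_le.mp h1)]
    push_cast; ring

/-- additivity in `χ` up to the coboundary of `g ↦ b ^ ((χ~ g + χ'~ g - (χχ')~ g)/n)`. -/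
theorem cyc_mul_left (χ χ' : G →* Multiplicative (ZMod n)) {b : M} (hb : ∀ g : G, g • b = b) :
    IsMulCoboundary₂ (cyc (χ * χ') b / (cyc χ b * cyc χ' b)) := by
  choose t ht using cyc_exists_carry χ χ'
  refine ⟨fun g => b ^ (- t g), fun g h => ?_⟩
  rw [cyc_dOne_zpow hb (fun g => - t g)]
  simp only [Pi.div_apply, Pi.mul_apply, cyc_eq_zpow_car]
  rw [← zpow_add, div_eq_mul_inv, ← zpow_sub]
  congr 1
  have hn : (n : ℤ) ≠ 0 := by exact_mod_cast NeZero.ne n
  apply mul_left_cancel₀ hn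
  have e1 := cyc_car_spec (χ * χ') g h
  have e2 := cyc_car_spec χ g h
  have e3 := cyc_car_spec χ' g h
  have t1 := ht g
  have t2 := ht h
  have t3 := ht (g * h)
  linear_combination (-1 : ℤ) * e1 + e2 + e3 - t1 - t2 + t3

theorem cyc_pow_left (χ : G →* Multiplicative (ZMod n)) {b : M} (hb : ∀ g : G, g • b = b) (k : ℕ) :
    IsMulCoboundary₂ (cyc (χ ^ k) b / cyc χ b ^ k) := by
  induction k with
  | zero =>
    rw [pow_zero, pow_zero, cyc_one_left, div_one]
    exact isMulCoboundary₂_one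
  | succ k ih =>
    have h1 := cyc_mul_left (χ ^ k) χ hb
    have h2 := isMulCoboundary₂_mul h1 ih
    have : cyc (χ ^ k * χ) b / (cyc (χ ^ k) b * cyc χ b) * (cyc (χ ^ k) b / cyc χ b ^ k)
        = cyc (χ ^ (k + 1)) b / cyc χ b ^ (k + 1) := by
      rw [pow_succ, pow_succ, div_mul_div_comm, mul_comm (cyc (χ ^ k * χ) b), mul_assoc,
        mul_div_mul_left_eq_div, mul_comm (cyc χ b)]
    rwa [this] at h2

theorem cyc_inv_left (χ : G →* Multiplicative (ZMod n)) {b : M} (hb : ∀ g : G, g • b = b) :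
    IsMulCoboundary₂ (cyc χ⁻¹ b * cyc χ b) := by
  have h1 := cyc_mul_left χ⁻¹ χ hb
  rw [inv_mul_cancel, cyc_one_left, one_div] at h1
  have h2 := isMulCoboundary₂_inv h1
  rwa [inv_inv] at h2

/-- `c(χ, b^n)` is the coboundary of `g ↦ b ^ χ~ g`. -/
theorem isMulCoboundary₂_cyc_pow (χ : G →* Multiplicative (ZMod n)) {b : M}
    (hb : ∀ g : G, g • b = b) : IsMulCoboundary₂ (cyc χ (b ^ n)) := by
  refine ⟨fun g => b ^ (lft χ g : ℤ), fun g h => ?_⟩
  rw [cyc_dOne_zpow hb (fun g => (lft χ g : ℤ)), cyc_eq_zpow_car, ← zpow_natCast, ← zpow_mul,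
    cyc_car_spec]
  congr 1
  ring

omit [MulDistribMulAction G M] [NeZero n] in
/-- functoriality in the group. -/
theorem pull_cyc {G' : Type*} [Group G'] (φ : G' →* G) (χ : G →* Multiplicative (ZMod n)) (b : M) :
    pull φ (cyc χ b) = cyc (χ.comp φ) b := rfl

/-- functoriality in the module. -/
theorem map_cyc {M' : Type*} [CommGroup M'] (ι : M →* M') (χ : G →* Multiplicative (ZMod n))
    (b : M) : (fun x => ι (cyc χ b x)) = cyc χ (ι b) := by
  funext x
  simp only [cyc]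
  split_ifs <;> simp

/-- change of modulus: `ZMod d → ZMod (d * m)`, `x ↦ m x`.  If `χ' g = m * χ g` (on lifts) then
`c_{dm}(χ', b) = c_d(χ, b)`. -/
theorem cyc_eq_of_lft_eq {d m : ℕ} [NeZero d] [NeZero m] (χ : G →* Multiplicative (ZMod d))
    (χ' : G →* Multiplicative (ZMod (d * m))) (h : ∀ g, lft χ' g = m * lft χ g) (b : M) :
    cyc χ' b = cyc χ b := by
  funext x
  have hm : 0 < m := Nat.pos_of_ne_zero (NeZero.ne m)
  simp only [cyc, h]
  have : d * m ≤ m * lft χ x.1 + m * lft χ x.2 ↔ d ≤ lft χ x.1 + lft χ x.2 := by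
    rw [← mul_add, mul_comm d m]
    exact Nat.mul_le_mul_left_iff hm
  simp only [this]

/-- reduction of the modulus: if `χ : G → ZMod (d*m)` and `χ̄ : G → ZMod d` is its reduction, then
`c_d(χ̄, b)` is cohomologous to `c_{dm}(χ, b^m)`, i.e. to `c_{dm}(χ,b)^m`. -/
theorem cyc_reduction {d m : ℕ} [NeZero d] [NeZero m] (χ : G →* Multiplicative (ZMod (d * m)))
    (χbar : G →* Multiplicative (ZMod d)) (h : ∀ g, lft χbar g = lft χ g % d)
    {b : M} (hb : ∀ g : G, g • b = b) :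
    IsMulCoboundary₂ (cyc χbar b / cyc χ (b ^ m)) := by
  refine ⟨fun g => b ^ (- ((lft χ g / d : ℕ) : ℤ)), fun g h' => ?_⟩
  rw [cyc_dOne_zpow hb (fun g => - ((lft χ g / d : ℕ) : ℤ))]
  simp only [Pi.div_apply, cyc_eq_zpow_car]
  rw [← zpow_natCast, ← zpow_mul, div_eq_mul_inv, ← zpow_sub]
  congr 1
  have hd : (d : ℤ) ≠ 0 := by exact_mod_cast NeZero.ne d
  apply mul_left_cancel₀ hd
  have e1 := cyc_car_spec χ g h'
  have e2 := cyc_car_spec χbar g h'
  have key : ∀ g, (lft χ g : ℤ) = lft χbar g + d * ((lft χ g / d : ℕ) : ℤ) := by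
    intro g
    rw [h g]
    exact_mod_cast (Nat.mod_add_div (lft χ g) d).symm
  have k1 := key g
  have k2 := key h'
  have k3 := key (g * h')
  push_cast at e1
  linear_combination e1 - e2 + k1 + k2 - k3

end Fermat.Agent.S55.HQ
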