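import Fermat.Agent.S55.HQ.Cyc

/-!
# S55-HQ : (HQ3) `H^2` of a finite cyclic group: `H^2(G, M) = M^G / N M` via `b ↦ c(χ, b)`
-/

namespace Fermat.Agent.S55.HQ

open groupCohomology

variable {G M : Type*} [Group G] [CommGroup M] [MulDistribMulAction G M]
variable {n : ℕ} [NeZero n]

section cycclassAux

omit [NeZero n] in
theorem cycclass_chi_pow (χ : G →* Multiplicative (ZMod n)) {σ : G}
    (hσ : χ σ = Multiplicative.ofAdd 1) (k : ℕ) :
    χ (σ ^ k) = Multiplicative.ofAdd (k : ZMod n) := by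
  rw [map_pow, hσ, ← ofAdd_nsmul, nsmul_one]

theorem cycclass_pow_lft (χ : G →* Multiplicative (ZMod n)) (hχ : Function.Bijective χ) {σ : G}
    (hσ : χ σ = Multiplicative.ofAdd 1) (g : G) : σ ^ lft χ g = g := by
  apply hχ.1
  rw [cycclass_chi_pow χ hσ, lft, ZMod.natCast_zmod_val, ofAdd_toAdd]

omit [NeZero n] in
theorem cycclass_lft_pow (χ : G →* Multiplicative (ZMod n)) {σ : G}
    (hσ : χ σ = Multiplicative.ofAdd 1) {j : ℕ} (hj : j < n) : lft χ (σ ^ j) = j := by
  rw [lft, cycclass_chi_pow χ hσ, toAdd_ofAdd, ZMod.val_natCast, Nat.mod_eq_of_lt hj]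

omit [NeZero n] in
theorem cycclass_pow_n (χ : G →* Multiplicative (ZMod n)) (hχ : Function.Bijective χ) {σ : G}
    (hσ : χ σ = Multiplicative.ofAdd 1) : σ ^ n = 1 := by
  apply hχ.1
  rw [cycclass_chi_pow χ hσ, ZMod.natCast_self, map_one, ofAdd_zero]

omit [MulDistribMulAction G M] in
theorem cycclass_prod_add (χ : G →* Multiplicative (ZMod n)) (F : ℕ → M)
    (hF : ∀ j, F (n + j) = F j) (g h : G) :
    ∏ j ∈ Finset.range (lft χ g + lft χ h), F j =
      cyc χ (∏ j ∈ Finset.range n, F j) (g, h) * ∏ j ∈ Finset.range (lft χ (g * h)), F j := by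
  rw [cyc_apply, lft_mul]
  split_ifs with h1
  · obtain ⟨k, hk⟩ := Nat.exists_eq_add_of_le h1
    rw [hk, Nat.add_sub_cancel_left, Finset.prod_range_add]
    simp only [hF]
  · rw [one_mul]

omit [NeZero n] in
theorem cycclass_prod_shift (F : ℕ → M) (hF : ∀ j, F (n + j) = F j) (a : ℕ) :
    ∏ j ∈ Finset.range n, F (a + j) = ∏ j ∈ Finset.range n, F j := by
  have h1 := Finset.prod_range_add F a n
  have h2 := Finset.prod_range_add F n a
  simp only [hF] at h2
  rw [add_comm a n, h2, mul_comm] at h1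
  exact (mul_left_cancel h1).symm

omit [MulDistribMulAction G M] in
theorem cycclass_prod_univ [Fintype G] (χ : G →* Multiplicative (ZMod n))
    (hχ : Function.Bijective χ) {σ : G} (hσ : χ σ = Multiplicative.ofAdd 1) (Φ : G → M) :
    ∏ j ∈ Finset.range n, Φ (σ ^ j) = ∏ g : G, Φ g := by
  refine Finset.prod_nbij' (fun j => σ ^ j) (fun g => lft χ g) ?_ ?_ ?_ ?_ ?_
  · intro j _; exact Finset.mem_univ _
  · intro g _; exact Finset.mem_range.2 (lft_lt χ g)
  · intro j hj; exact cycclass_lft_pow χ hσ (Finset.mem_range.1 hj)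
  · intro g _; exact cycclass_pow_lft χ hχ hσ g
  · intro j _; rfl

theorem cycclass_key {f : G × G → M} (hf : IsMulCocycle₂ f) (hf1 : ∀ g, f (g, 1) = 1)
    (σ g : G) (i : ℕ) :
    f (g, σ ^ i) * g • (∏ j ∈ Finset.range i, f (σ ^ j, σ)) =
      ∏ j ∈ Finset.range i, f (g * σ ^ j, σ) := by
  induction i with
  | zero => simp [hf1]
  | succ i ih =>
    rw [Finset.prod_range_succ, Finset.prod_range_succ, ← ih, smul_mul', pow_succ]
    have h := hf g (σ ^ i) σ
    calc f (g, σ ^ i * σ) * (g • (∏ j ∈ Finset.range i, f (σ ^ j, σ)) * g • f (σ ^ i, σ))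
        = g • (∏ j ∈ Finset.range i, f (σ ^ j, σ)) * (g • f (σ ^ i, σ) * f (g, σ ^ i * σ)) := by
          ac_rfl
      _ = f (g, σ ^ i) * g • (∏ j ∈ Finset.range i, f (σ ^ j, σ)) * f (g * σ ^ i, σ) := by
          rw [← h]; ac_rfl

omit [MulDistribMulAction G M] in
theorem cycclass_alg {A B C c f : M} (h : B * (f * A) = c * C) :
    A⁻¹ / C⁻¹ * B⁻¹ = f / c := by
  have h1 : A⁻¹ / C⁻¹ * B⁻¹ = C / (B * A) := by
    rw [div_eq_mul_inv, inv_inv, div_eq_mul_inv, mul_inv]; ac_rfl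
  rw [h1, div_eq_div_iff_mul_eq_mul, mul_comm C c, ← h]; ac_rfl

theorem cycclass_exists_of_normalized (χ : G →* Multiplicative (ZMod n))
    (hχ : Function.Bijective χ) {f : G × G → M} (hf : IsMulCocycle₂ f)
    (hf1 : ∀ g, f (g, 1) = 1) :
    ∃ b : M, (∀ g : G, g • b = b) ∧ IsMulCoboundary₂ (f / cyc χ b) := by
  obtain ⟨σ, hσ⟩ := hχ.2 (Multiplicative.ofAdd 1)
  obtain ⟨F, hFdef⟩ : ∃ F : ℕ → M, ∀ j, F j = f (σ ^ j, σ) := ⟨_, fun _ => rfl⟩
  have hF : ∀ j, F (n + j) = F j := by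
    intro j; simp only [hFdef, pow_add, cycclass_pow_n χ hχ hσ, one_mul]
  have hFg : ∀ (g : G) (j : ℕ), f (g * σ ^ j, σ) = F (lft χ g + j) := by
    intro g j; simp only [hFdef, pow_add, cycclass_pow_lft χ hχ hσ]
  have key : ∀ (g : G) (i : ℕ), f (g, σ ^ i) * g • (∏ j ∈ Finset.range i, F j) =
      ∏ j ∈ Finset.range i, F (lft χ g + j) := by
    intro g i
    have h := cycclass_key hf hf1 σ g i
    simp only [hFg, ← hFdef] at h
    exact h
  refine ⟨∏ j ∈ Finset.range n, F j, ?_, ?_⟩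
  · intro g
    have h := key g n
    rw [cycclass_pow_n χ hχ hσ, hf1, one_mul] at h
    rw [h]
    exact cycclass_prod_shift F hF _
  · refine ⟨fun g => (∏ j ∈ Finset.range (lft χ g), F j)⁻¹, fun g h => ?_⟩
    have h1 := key g (lft χ h)
    rw [cycclass_pow_lft χ hχ hσ] at h1
    have h2 := cycclass_prod_add χ F hF g h
    rw [Finset.prod_range_add, ← h1] at h2
    rw [Pi.div_apply, smul_inv']
    exact cycclass_alg h2

end cycclassAux

/-- (HQ3a) If `χ : G ≅ Z/n` then every 2-cocycle is cohomologous to some `c(χ, b)`, `b ∈ M^G`.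
[`σ` with `χ σ = 1`; `x(σ^i) = ∏_{j<i} f(σ^j, σ)` (`0 ≤ i < n`), `b = ∏_{j<n} f(σ^j, σ)`.] -/
theorem exists_cyc_of_bijective (χ : G →* Multiplicative (ZMod n)) (hχ : Function.Bijective χ)
    {f : G × G → M} (hf : IsMulCocycle₂ f) :
    ∃ b : M, (∀ g : G, g • b = b) ∧ IsMulCoboundary₂ (f / cyc χ b) := by
  obtain ⟨f', hf', hd, -, h1⟩ := exists_normalized hf
  obtain ⟨b, hb, hc⟩ := cycclass_exists_of_normalized χ hχ hf' h1
  refine ⟨b, hb, ?_⟩
  have h := isMulCoboundary₂_mul hd hc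
  rwa [div_mul_div_cancel] at h

/-- (HQ3b) If `χ : G ≅ Z/n` then `c(χ, b)` is a coboundary iff `b` is a norm. -/
theorem isMulCoboundary₂_cyc_iff [Fintype G] (χ : G →* Multiplicative (ZMod n))
    (hχ : Function.Bijective χ) {b : M} (hb : ∀ g : G, g • b = b) :
    IsMulCoboundary₂ (cyc χ b) ↔ ∃ a : M, b = ∏ g : G, g • a := by
  obtain ⟨σ, hσ⟩ := hχ.2 (Multiplicative.ofAdd 1)
  constructor
  · rintro ⟨x, hx⟩
    rcases Nat.lt_or_ge 1 n with hn | hn
    · refine ⟨x σ, ?_⟩
      rw [← cycclass_prod_univ χ hχ hσ (fun g => g • x σ)]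
      have hl : lft χ σ = 1 := by simpa using cycclass_lft_pow χ hσ hn
      have h1 : ∀ i ∈ Finset.range n,
          σ ^ i • x σ / x (σ ^ (1 + i)) * x (σ ^ i) = if i = n - 1 then b else 1 := by
        intro i hi
        have hi' := Finset.mem_range.1 hi
        rw [add_comm 1 i, pow_succ, hx, cyc_apply, cycclass_lft_pow χ hσ hi', hl]
        by_cases h : i = n - 1
        · rw [if_pos h, if_pos (by omega)]
        · rw [if_neg h, if_neg (by omega)]
      have h2 := Finset.prod_congr rfl h1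
      rw [Finset.prod_ite_eq', if_pos (Finset.mem_range.2 (by omega)), Finset.prod_mul_distrib,
        Finset.prod_div_distrib] at h2
      have h3 := cycclass_prod_shift (n := n) (fun j => x (σ ^ j))
        (by intro j; simp only [pow_add, cycclass_pow_n χ hχ hσ, one_mul]) 1
      rw [h3, div_mul_cancel] at h2
      exact h2.symm
    · have hn1 : n = 1 := by have := NeZero.pos n; omega
      subst hn1
      refine ⟨b, ?_⟩
      rw [← cycclass_prod_univ χ hχ hσ (fun g => g • b)]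
      simp
  · rintro ⟨a, rfl⟩
    rw [← cycclass_prod_univ χ hχ hσ (fun g => g • a)]
    obtain ⟨F, hFdef⟩ : ∃ F : ℕ → M, ∀ j, F j = σ ^ j • a := ⟨_, fun _ => rfl⟩
    have hF : ∀ j, F (n + j) = F j := by
      intro j; simp only [hFdef, pow_add, cycclass_pow_n χ hχ hσ, one_mul]
    simp only [← hFdef]
    refine ⟨fun g => ∏ j ∈ Finset.range (lft χ g), F j, fun g h => ?_⟩
    have h2 := cycclass_prod_add χ F hF g h
    rw [Finset.prod_range_add] at h2
    have h3 : g • ∏ j ∈ Finset.range (lft χ h), F j =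
        ∏ j ∈ Finset.range (lft χ h), F (lft χ g + j) := by
      rw [Finset.smul_prod']
      refine Finset.prod_congr rfl fun j _ => ?_
      simp only [hFdef, pow_add, cycclass_pow_lft χ hχ hσ, mul_smul]
    simp only [h3]
    rw [div_mul_eq_mul_div, div_eq_iff_eq_mul, mul_comm, h2]

end Fermat.Agent.S55.HQ
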