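import Fermat.Agent.S55.HQ.Index

/-!
# S55-HQ : `[A : nA] = n ^ rank(A) * #A[n]` for a finitely generated abelian group (helper file)
-/

namespace Fermat.Agent.S55.HQ

/-- free part: `[F : nF] = n ^ rank F`. -/
theorem fgaux_index_free (F : Type*) [AddCommGroup F] [Module.Finite ℤ F] [Module.Free ℤ F]
    (n : ℕ) (hn : n ≠ 0) :
    (n • AddMonoidHom.id F).range.index = n ^ Module.finrank ℤ F := by
  classical
  have : NeZero n := ⟨hn⟩
  let b := Module.Free.chooseBasis ℤ F
  let φ : F →+ (Module.Free.ChooseBasisIndex ℤ F → ZMod n) :=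
    { toFun := fun x i => ((b.repr x i : ℤ) : ZMod n)
      map_zero' := by ext i; simp
      map_add' := fun x y => by ext i; simp }
  have hker : φ.ker = (n • AddMonoidHom.id F).range := by
    ext x
    rw [AddMonoidHom.mem_ker, AddMonoidHom.mem_range]
    constructor
    · intro hx
      have hd : ∀ i, (n : ℤ) ∣ b.repr x i := fun i =>
        (ZMod.intCast_zmod_eq_zero_iff_dvd _ _).1 (congrFun hx i)
      choose c hc using hd
      refine ⟨∑ i, c i • b i, ?_⟩
      apply b.repr.injective
      ext i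
      simp [Finsupp.single_apply, hc i]
    · rintro ⟨y, rfl⟩
      ext i
      simp [φ]
  have hsurj : Function.Surjective φ := by
    intro y
    refine ⟨∑ i, ((y i).val : ℤ) • b i, ?_⟩
    ext i
    simp [φ, Finsupp.single_apply]
  rw [← hker, AddSubgroup.index_ker, AddMonoidHom.range_eq_top.2 hsurj, Nat.card_congr
    (AddSubgroup.topEquiv (G := Module.Free.ChooseBasisIndex ℤ F → ZMod n)).toEquiv,
    Nat.card_eq_fintype_card, Fintype.card_pi, Module.finrank_eq_card_chooseBasisIndex]
  simp [ZMod.card]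

/-- `[A : nA] = n ^ rank(A) * #A[n]`. -/
theorem fgaux_index (A : Type*) [AddCommGroup A] [Module.Finite ℤ A] (n : ℕ) (hn : n ≠ 0) :
    (n • AddMonoidHom.id A).range.index =
      n ^ Module.finrank ℤ A * Nat.card (n • AddMonoidHom.id A).ker := by
  set g : A →+ A := n • AddMonoidHom.id A with hg
  have hgx : ∀ x, g x = n • x := fun x => rfl
  let T : AddSubgroup A := (Submodule.torsion ℤ A).toAddSubgroup
  let π : A →+ (A ⧸ Submodule.torsion ℤ A) := (Submodule.torsion ℤ A).mkQ.toAddMonoidHom
  have hπs : Function.Surjective π := Submodule.mkQ_surjective _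
  have hπk : π.ker = T := by
    ext x
    simp [π, T, AddMonoidHom.mem_ker]
  have : Module.Free ℤ (A ⧸ Submodule.torsion ℤ A) := Module.free_of_finite_type_torsion_free'
  have : Finite (Submodule.torsion ℤ A) :=
    Module.finite_of_fg_torsion _ Submodule.torsion_isTorsion
  have : Finite T := ‹Finite (Submodule.torsion ℤ A)›
  have hrank : Module.finrank ℤ (A ⧸ Submodule.torsion ℤ A) = Module.finrank ℤ A := by
    have h1 := (Submodule.torsion ℤ A).finrank_quotient_add_finrank
    have h2 : Module.finrank ℤ (Submodule.torsion ℤ A) = 0 :=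
      Module.finrank_eq_zero_iff_isTorsion.2 Submodule.torsion_isTorsion
    omega
  have hmemT : ∀ x : A, x ∈ T ↔ ∃ m : ℕ, m ≠ 0 ∧ m • x = 0 := by
    intro x
    constructor
    · intro hx
      obtain ⟨a, ha⟩ := (Submodule.mem_torsion_iff x).1 hx
      have ha0 : (a : ℤ) ≠ 0 := nonZeroDivisors.coe_ne_zero a
      refine ⟨(a : ℤ).natAbs, Int.natAbs_ne_zero.2 ha0, ?_⟩
      have ha' : (a : ℤ) • x = 0 := ha
      rcases Int.natAbs_eq (a : ℤ) with h | h
      · rw [h] at ha'
        simpa using ha'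
      · rw [h] at ha'
        simpa using ha'
    · rintro ⟨m, hm, hx⟩
      refine (Submodule.mem_torsion_iff x).2 ⟨⟨(m : ℤ), ?_⟩, ?_⟩
      · exact mem_nonZeroDivisors_of_ne_zero (by exact_mod_cast hm)
      · change (m : ℤ) • x = 0
        simpa using hx
  have h0 := relIndex_eq_map_mul_inf_ker π g.range ⊤ le_top
  rw [AddSubgroup.relIndex_top_right, AddSubgroup.map_top_of_surjective π hπs,
    AddSubgroup.relIndex_top_right, top_inf_eq, hπk] at h0
  have h1 : g.range.map π = (n • AddMonoidHom.id (A ⧸ Submodule.torsion ℤ A)).range := by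
    ext y
    constructor
    · rintro ⟨_, ⟨x, rfl⟩, rfl⟩
      exact ⟨π x, by simp [hgx]⟩
    · rintro ⟨z, rfl⟩
      obtain ⟨x, rfl⟩ := hπs z
      exact ⟨g x, ⟨x, rfl⟩, by simp [hgx]⟩
  have h2 : g.range ⊓ T = T.map g := by
    ext y
    constructor
    · rintro ⟨⟨x, rfl⟩, hy⟩
      refine ⟨x, ?_, rfl⟩
      obtain ⟨m, hm, hx⟩ := (hmemT _).1 hy
      refine (hmemT x).2 ⟨m * n, Nat.mul_ne_zero hm hn, ?_⟩
      rw [mul_smul]
      exact hx
    · rintro ⟨x, hx, rfl⟩
      refine ⟨⟨x, rfl⟩, ?_⟩
      rw [hgx]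
      exact T.nsmul_mem hx n
  have h3 : T ⊓ g.ker = g.ker := by
    rw [inf_eq_right]
    intro x hx
    exact (hmemT x).2 ⟨n, hn, hx⟩
  have hle : T.map g ≤ T := by
    rw [← h2]; exact inf_le_right
  have h4 := card_eq_relIndex_mul_card (T.map g) T hle
  have h5 := card_eq_card_map_mul_card_inf_ker g T
  rw [h3] at h5
  have h6 : (T.map g).relIndex T = Nat.card g.ker := by
    have hpos : 0 < Nat.card (T.map g) := by
      have : Finite (T.map g) := Finite.of_injective
        (fun y : T.map g => (⟨y.1, hle y.2⟩ : T)) (fun a b h => Subtype.ext (by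
          simpa using congrArg Subtype.val h))
      exact Nat.card_pos
    have : (T.map g).relIndex T * Nat.card (T.map g) = Nat.card g.ker * Nat.card (T.map g) := by
      rw [← h4, h5, mul_comm]
    exact Nat.eq_of_mul_eq_mul_right hpos this
  rw [h0, h1, h2, h6, fgaux_index_free _ n hn, hrank]

/-- `A[n]` is finite. -/
theorem fgaux_card_ker_ne_zero (A : Type*) [AddCommGroup A] [Module.Finite ℤ A] (n : ℕ)
    (hn : n ≠ 0) : Nat.card (n • AddMonoidHom.id A).ker ≠ 0 := by
  have : Finite (Submodule.torsion ℤ A) :=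
    Module.finite_of_fg_torsion _ Submodule.torsion_isTorsion
  have hmem : ∀ x ∈ (n • AddMonoidHom.id A).ker, x ∈ Submodule.torsion ℤ A := by
    intro x hx
    refine (Submodule.mem_torsion_iff x).2 ⟨⟨(n : ℤ), ?_⟩, ?_⟩
    · exact mem_nonZeroDivisors_of_ne_zero (by exact_mod_cast hn)
    · change (n : ℤ) • x = 0
      have hx' : n • x = 0 := hx
      simpa using hx'
  have : Finite (n • AddMonoidHom.id A).ker := Finite.of_injective
    (fun y : (n • AddMonoidHom.id A).ker => (⟨y.1, hmem y.1 y.2⟩ : Submodule.torsion ℤ A))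
    (fun a b h => Subtype.ext (by simpa using congrArg Subtype.val h))
  exact Nat.card_pos.ne'

end Fermat.Agent.S55.HQ
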