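import Fermat.Agent.S55.HQ.Chevalley
import Fermat.Agent.S55.HQ.FGAux

/-!
# S55-HQ : `q_{0,n}` of a finitely generated abelian group is `n ^ rank`
-/

namespace Fermat.Agent.S55.HQ

/-- `[A : nA] = n ^ rank(A) * #A[n]` for a finitely generated abelian group. -/
theorem hq_of_fg (A : Type*) [AddCommGroup A] [Module.Finite ℤ A] (n : ℕ) (hn : n ≠ 0) :
    HQDefined 0 (mulN A n) ∧ hq 0 (mulN A n) = (n : ℚ) ^ Module.finrank ℤ A := by
  have h1 : hnum 0 (mulN A n) = n ^ Module.finrank ℤ A * Nat.card (mulN A n).ker := by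
    rw [hnum_zero_left]
    exact fgaux_index A n hn
  have h2 : hnum (mulN A n) 0 = Nat.card (mulN A n).ker := hnum_zero_right _
  have h3 : Nat.card (mulN A n).ker ≠ 0 := fgaux_card_ker_ne_zero A n hn
  refine ⟨⟨?_, ?_⟩, ?_⟩
  · rw [h1]
    exact Nat.mul_ne_zero (pow_ne_zero _ hn) h3
  · rw [h2]
    exact h3
  · have h3' : (Nat.card (mulN A n).ker : ℚ) ≠ 0 := by exact_mod_cast h3
    unfold hq
    rw [h1, h2]
    push_cast
    field_simp

/-- The same in `ℕ`. -/
theorem index_range_mulN_of_fg (A : Type*) [AddCommGroup A] [Module.Finite ℤ A] (n : ℕ)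
    (hn : n ≠ 0) :
    (mulN A n).range.index = n ^ Module.finrank ℤ A * Nat.card (mulN A n).ker :=
  fgaux_index A n hn

end Fermat.Agent.S55.HQ
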