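import Fermat.Agent.S55.HQ.InfRes
import Fermat.Agent.S55.HQ.CycClass

/-!
# S55-HQ : the order of `H^2(G, M)` (unbundled: index of coboundaries in cocycles)
-/

namespace Fermat.Agent.S55.HQ

open groupCohomology

section defs

variable (G M : Type*) [Group G] [CommGroup M] [MulDistribMulAction G M]

/-- The group of 2-cocycles. -/
def Z2 : Subgroup (G × G → M) where
  carrier := {f | IsMulCocycle₂ f}
  one_mem' := isMulCocycle₂_one
  mul_mem' := isMulCocycle₂_mul
  inv_mem' := isMulCocycle₂_inv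

/-- The group of 2-coboundaries. -/
def B2 : Subgroup (G × G → M) where
  carrier := {f | IsMulCoboundary₂ f}
  one_mem' := isMulCoboundary₂_one
  mul_mem' := isMulCoboundary₂_mul
  inv_mem' := isMulCoboundary₂_inv

/-- `#H^2(G, M)` (`0` if infinite). -/
noncomputable def h2card : ℕ := (B2 G M).relIndex (Z2 G M)

end defs

variable {G Q M M' : Type*} [Group G] [Group Q] [CommGroup M] [CommGroup M']
  [MulDistribMulAction G M] [MulDistribMulAction Q M']

theorem mem_Z2 {f : G × G → M} : f ∈ Z2 G M ↔ IsMulCocycle₂ f := Iff.rfl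

theorem mem_B2 {f : G × G → M} : f ∈ B2 G M ↔ IsMulCoboundary₂ f := Iff.rfl

theorem B2_le_Z2 : B2 G M ≤ Z2 G M := fun _ hf => isMulCocycle₂_of_isMulCoboundary₂ hf

/-- abstract index bound: `K ≤ B ⊔ ψ(Z')` and `ψ(B') ≤ B` give `[K : B] ≤ [Z' : B']`. -/
private theorem h2card_relIndex_le_of_le_sup_map {X Y : Type*} [CommGroup X] [CommGroup Y]
    (ψ : Y →* X) (B K : Subgroup X) (B' Z' : Subgroup Y) (h1 : K ≤ B ⊔ Z'.map ψ)
    (h2 : B' ≤ B.comap ψ) (h0 : B'.relIndex Z' ≠ 0) :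
    B.relIndex K ≠ 0 ∧ B.relIndex K ≤ B'.relIndex Z' := by
  have e1 : B.relIndex (B ⊔ Z'.map ψ) = (B.comap ψ).relIndex Z' := by
    rw [Subgroup.relIndex_sup_left, Subgroup.relIndex_comap]
  have e2 : (B.comap ψ).relIndex Z' ∣ B'.relIndex Z' := Subgroup.relIndex_dvd_of_le_left Z' h2
  have e3 : (B.comap ψ).relIndex Z' ≠ 0 := fun h => h0 (by rw [h] at e2; exact zero_dvd_iff.1 e2)
  have e4 : B.relIndex (B ⊔ Z'.map ψ) ≠ 0 := by rw [e1]; exact e3
  refine ⟨fun h => e4 (Subgroup.relIndex_eq_zero_of_le_right h1 h), ?_⟩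
  calc B.relIndex K ≤ B.relIndex (B ⊔ Z'.map ψ) := Subgroup.relIndex_le_of_le_right h1 e4
    _ = (B.comap ψ).relIndex Z' := e1
    _ ≤ B'.relIndex Z' := Nat.le_of_dvd (Nat.pos_of_ne_zero h0) e2

/-- abstract index bound: `φ(Z) ≤ Z'` gives `[Z : Z ⊓ φ⁻¹ B'] ≤ [Z' : B']`. -/
private theorem h2card_relIndex_comap_le {X Y : Type*} [CommGroup X] [CommGroup Y]
    (φ : X →* Y) (Z : Subgroup X) (B' Z' : Subgroup Y) (h1 : Z.map φ ≤ Z')
    (h0 : B'.relIndex Z' ≠ 0) :
    (B'.comap φ ⊓ Z).relIndex Z ≠ 0 ∧ (B'.comap φ ⊓ Z).relIndex Z ≤ B'.relIndex Z' := by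
  rw [Subgroup.inf_relIndex_right, Subgroup.relIndex_comap]
  exact ⟨fun h => h0 (Subgroup.relIndex_eq_zero_of_le_right h1 h),
    Subgroup.relIndex_le_of_le_right h1 h0⟩

/-- pull-back as a homomorphism -/
private def h2cardPullHom {G' : Type*} [Group G'] (φ : G' →* G) :
    (G × G → M) →* (G' × G' → M) where
  toFun := pull φ
  map_one' := rfl
  map_mul' := fun _ _ => rfl

/-- inflation as a homomorphism -/
private def h2cardInflHom (π : G →* Q) (ι : M' →* M) : (Q × Q → M') →* (G × G → M) where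
  toFun := infl π ι
  map_one' := by
    funext x
    simp [infl]
  map_mul' := fun f f' => by
    funext x
    simp [infl]

/-- `#H^2(G,M) ≤ #H^2(G/H, M^H) * #H^2(H, M)` if `H^1(H,M)=0`. -/
theorem h2card_le {π : G →* Q} {ι : M' →* M} (D : InfData π ι) (hQ : h2card Q M' ≠ 0)
    (hH : h2card π.ker M ≠ 0) :
    h2card G M ≠ 0 ∧ h2card G M ≤ h2card Q M' * h2card π.ker M := by
  set φ : (G × G → M) →* (π.ker × π.ker → M) := h2cardPullHom π.ker.subtype with hφ
  set ψ : (Q × Q → M') →* (G × G → M) := h2cardInflHom π ι with hψ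
  set K : Subgroup (G × G → M) := (B2 π.ker M).comap φ ⊓ Z2 G M with hK
  have hsm : ∀ (g : π.ker) (m : M), g • m = π.ker.subtype g • m := fun _ _ => rfl
  have hBK : B2 G M ≤ K := by
    intro f hf
    exact ⟨isMulCoboundary₂_pull π.ker.subtype hsm hf, B2_le_Z2 hf⟩
  have hKZ : K ≤ Z2 G M := inf_le_right
  have h1 := h2card_relIndex_comap_le φ (Z2 G M) (B2 π.ker M) (Z2 π.ker M) (by
    rintro _ ⟨f, hf, rfl⟩
    exact isMulCocycle₂_pull π.ker.subtype hsm hf) hH
  have h2 := h2card_relIndex_le_of_le_sup_map ψ (B2 G M) K (B2 Q M') (Z2 Q M') (by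
    intro f hf
    obtain ⟨f', hf', hff'⟩ := exists_infl_of_res D hf.2 hf.1
    have : f = (f / infl π ι f') * infl π ι f' := by rw [div_mul_cancel]
    rw [this]
    exact Subgroup.mul_mem_sup hff' ⟨f', hf', rfl⟩) (by
    intro f hf
    exact isMulCoboundary₂_infl D.equiv hf) hQ
  have hmul : h2card G M = (B2 G M).relIndex K * K.relIndex (Z2 G M) :=
    (Subgroup.relIndex_mul_relIndex _ _ _ hBK hKZ).symm
  rw [hmul]
  exact ⟨mul_ne_zero h2.1 h1.1, Nat.mul_le_mul h2.2 h1.2⟩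

/-- (HQ3) in index form: for `χ : G ≅ Z/n`, `#H^2(G,M) = [M^G : N M]`. -/
theorem h2card_of_bijective [Fintype G] {n : ℕ} [NeZero n] (χ : G →* Multiplicative (ZMod n))
    (hχ : Function.Bijective χ) (N : M →* M) (hN : ∀ a, N a = ∏ g : G, g • a)
    (F : Subgroup M) (hF : ∀ b, b ∈ F ↔ ∀ g : G, g • b = b) :
    h2card G M = N.range.relIndex F := by
  let c : M →* (G × G → M) :=
    { toFun := fun b => cyc χ b
      map_one' := cyc_one_right χ
      map_mul' := cyc_mul_right χ }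
  have hZ : Z2 G M = B2 G M ⊔ F.map c := by
    apply le_antisymm
    · intro f hf
      obtain ⟨b, hb, hfb⟩ := exists_cyc_of_bijective χ hχ hf
      have : f = (f / cyc χ b) * cyc χ b := by rw [div_mul_cancel]
      rw [this]
      exact Subgroup.mul_mem_sup hfb ⟨b, (hF b).2 hb, rfl⟩
    · refine sup_le B2_le_Z2 ?_
      rintro _ ⟨b, hb, rfl⟩
      exact isMulCocycle₂_cyc χ ((hF b).1 hb)
  have hinf : (B2 G M).comap c ⊓ F = N.range ⊓ F := by
    ext b
    simp only [Subgroup.mem_inf, Subgroup.mem_comap, MonoidHom.mem_range]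
    constructor
    · rintro ⟨h1, h2⟩
      obtain ⟨a, ha⟩ := (isMulCoboundary₂_cyc_iff χ hχ ((hF b).1 h2)).1 h1
      exact ⟨⟨a, by rw [hN, ha]⟩, h2⟩
    · rintro ⟨⟨a, ha⟩, h2⟩
      exact ⟨(isMulCoboundary₂_cyc_iff χ hχ ((hF b).1 h2)).2 ⟨a, by rw [← ha, hN]⟩, h2⟩
  unfold h2card
  rw [hZ, Subgroup.relIndex_sup_left, ← Subgroup.relIndex_comap, ← Subgroup.inf_relIndex_right,
    hinf, Subgroup.inf_relIndex_right]

/-- If `#H^2 ≤ n` and the class of `u` has order at least `n` (i.e. `u^k` coboundary => `n ∣ k`)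
then every class is a power of `u`. -/
theorem exists_pow_of_h2card_le {n : ℕ} (h0 : h2card G M ≠ 0) (hn : h2card G M ≤ n)
    {u : G × G → M} (hu : IsMulCocycle₂ u) (hord : ∀ k : ℕ, IsMulCoboundary₂ (u ^ k) → n ∣ k)
    {f : G × G → M} (hf : IsMulCocycle₂ f) : ∃ k : ℕ, IsMulCoboundary₂ (f / u ^ k) := by
  set Bs : Subgroup (Z2 G M) := (B2 G M).subgroupOf (Z2 G M) with hBs
  have hcard : Nat.card (Z2 G M ⧸ Bs) = h2card G M := rfl
  have hfin : Finite (Z2 G M ⧸ Bs) := Nat.finite_of_card_ne_zero (by rw [hcard]; exact h0)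
  set ub : Z2 G M ⧸ Bs := QuotientGroup.mk ⟨u, hu⟩ with hub
  set fb : Z2 G M ⧸ Bs := QuotientGroup.mk ⟨f, hf⟩ with hfb
  have hmk : ∀ (z : Z2 G M), (QuotientGroup.mk z : Z2 G M ⧸ Bs) = 1 ↔
      IsMulCoboundary₂ (z : G × G → M) := by
    intro z
    rw [QuotientGroup.eq_one_iff]
    exact Subgroup.mem_subgroupOf
  have ho : n ∣ orderOf ub := by
    apply hord
    have h1 : ub ^ orderOf ub = 1 := pow_orderOf_eq_one ub
    rw [hub, ← QuotientGroup.mk_pow, hmk] at h1
    exact h1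
  have ho2 : orderOf ub ∣ Nat.card (Z2 G M ⧸ Bs) := orderOf_dvd_natCard ub
  have ho3 : orderOf ub = Nat.card (Z2 G M ⧸ Bs) := by
    apply Nat.dvd_antisymm ho2
    have h3 : Nat.card (Z2 G M ⧸ Bs) ≤ orderOf ub := by
      rw [hcard]
      exact hn.trans (Nat.le_of_dvd (orderOf_pos ub) ho)
    have h4 : orderOf ub ≤ Nat.card (Z2 G M ⧸ Bs) :=
      Nat.le_of_dvd (Nat.pos_of_ne_zero (by rw [hcard]; exact h0)) ho2
    rw [le_antisymm h4 h3]
  have htop : Subgroup.zpowers ub = ⊤ :=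
    Subgroup.eq_top_of_card_eq _ (by rw [Nat.card_zpowers, ho3])
  have hmem : fb ∈ Subgroup.zpowers ub := htop ▸ Subgroup.mem_top _
  rw [← mem_powers_iff_mem_zpowers] at hmem
  obtain ⟨k, hk⟩ := hmem
  refine ⟨k, ?_⟩
  have h5 : fb / ub ^ k = 1 := by
    have hk' : ub ^ k = fb := hk
    rw [hk', div_self']
  rw [hfb, hub, ← QuotientGroup.mk_pow, ← QuotientGroup.mk_div, hmk] at h5
  exact h5

/-- trivial group. -/
theorem h2card_of_subsingleton [Subsingleton G] : h2card G M = 1 := by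
  unfold h2card
  rw [Subgroup.relIndex_eq_one]
  intro f _
  refine ⟨fun _ => f (1, 1), fun g h => ?_⟩
  have hg : g = 1 := Subsingleton.elim _ _
  have hh : h = 1 := Subsingleton.elim _ _
  subst hg hh
  simp

/-- transport along isomorphisms of groups and modules. -/
theorem h2card_congr {G₂ M₂ : Type*} [Group G₂] [CommGroup M₂] [MulDistribMulAction G₂ M₂]
    (e : G ≃* G₂) (ε : M ≃* M₂) (h : ∀ (g : G) (m : M), ε (g • m) = e g • ε m) :
    h2card G M = h2card G₂ M₂ := by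
  let Φ : (G × G → M) →* (G₂ × G₂ → M₂) :=
    { toFun := fun f x => ε (f (e.symm x.1, e.symm x.2))
      map_one' := by
        funext x
        simp
      map_mul' := fun f f' => by
        funext x
        simp }
  have hΦ : Function.Injective Φ := by
    intro f f' hff'
    funext x
    have := congrFun hff' (e x.1, e x.2)
    simpa [Φ] using this
  have hΦapp : ∀ (f : G × G → M) (a b : G), Φ f (e a, e b) = ε (f (a, b)) := by
    intro f a b
    simp [Φ]
  have hsurj : ∀ f₂ : G₂ × G₂ → M₂, ∃ f : G × G → M, Φ f = f₂ := by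
    intro f₂
    refine ⟨fun x => ε.symm (f₂ (e x.1, e x.2)), ?_⟩
    funext x
    simp [Φ]
  have hZ : (Z2 G M).map Φ = Z2 G₂ M₂ := by
    ext f₂
    obtain ⟨f, rfl⟩ := hsurj f₂
    rw [Subgroup.mem_map_iff_mem hΦ, mem_Z2, mem_Z2]
    constructor
    · intro hf a b c
      obtain ⟨a, rfl⟩ := e.surjective a
      obtain ⟨b, rfl⟩ := e.surjective b
      obtain ⟨c, rfl⟩ := e.surjective c
      rw [← map_mul, ← map_mul, hΦapp, hΦapp, hΦapp, hΦapp, ← h, ← map_mul, ← map_mul, hf a b c]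
    · intro hf a b c
      have := hf (e a) (e b) (e c)
      rw [← map_mul, ← map_mul, hΦapp, hΦapp, hΦapp, hΦapp, ← h, ← map_mul, ← map_mul] at this
      exact ε.injective this
  have hB : (B2 G M).map Φ = B2 G₂ M₂ := by
    ext f₂
    obtain ⟨f, rfl⟩ := hsurj f₂
    rw [Subgroup.mem_map_iff_mem hΦ, mem_B2, mem_B2]
    constructor
    · rintro ⟨x, hx⟩
      refine ⟨fun g => ε (x (e.symm g)), fun a b => ?_⟩
      obtain ⟨a, rfl⟩ := e.surjective a
      obtain ⟨b, rfl⟩ := e.surjective b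
      rw [hΦapp, ← hx a b, ← map_mul]
      simp [h]
    · rintro ⟨x, hx⟩
      refine ⟨fun g => ε.symm (x (e g)), fun a b => ?_⟩
      apply ε.injective
      rw [← hΦapp, ← hx (e a) (e b)]
      simp [h]
  unfold h2card
  rw [← hZ, ← hB, Subgroup.relIndex_map_map_of_injective _ _ hΦ]

end Fermat.Agent.S55.HQ
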