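import Fermat.Agent.S55.HQ.Index

/-!
# S55-HQ : the Herbrand quotient `q_{f,g}(A) = [ker f : im g] / [ker g : im f]`

`A` an additive commutative group, `f g : A →+ A` with `f ∘ g = g ∘ f = 0`.
-/

namespace Fermat.Agent.S55.HQ

section defs

variable {A : Type*} [AddCommGroup A]

/-- `[ker f : im g]` (`0` if infinite). -/
noncomputable def hnum (f g : A →+ A) : ℕ := g.range.relIndex f.ker

/-- Both indices `[ker f : im g]`, `[ker g : im f]` are finite. -/
def HQDefined (f g : A →+ A) : Prop := hnum f g ≠ 0 ∧ hnum g f ≠ 0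

/-- The Herbrand quotient. -/
noncomputable def hq (f g : A →+ A) : ℚ := (hnum f g : ℚ) / (hnum g f : ℚ)

theorem hnum_zero_left (f : A →+ A) : hnum 0 f = f.range.index := by
  rw [hnum, AddMonoidHom.ker_zero, AddSubgroup.relIndex_top_right]

theorem hnum_zero_right (f : A →+ A) : hnum f 0 = Nat.card f.ker := by
  rw [hnum, AddMonoidHom.range_zero, AddSubgroup.relIndex_bot_left]

theorem HQDefined.symm {f g : A →+ A} (h : HQDefined f g) : HQDefined g f := ⟨h.2, h.1⟩

theorem hq_swap (f g : A →+ A) : hq g f = (hq f g)⁻¹ := by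
  rw [hq, hq, inv_div]

theorem HQDefined.hq_ne_zero {f g : A →+ A} (h : HQDefined f g) : hq f g ≠ 0 :=
  div_ne_zero (Nat.cast_ne_zero.mpr h.1) (Nat.cast_ne_zero.mpr h.2)

theorem HQDefined.hq_pos {f g : A →+ A} (h : HQDefined f g) : 0 < hq f g :=
  div_pos (Nat.cast_pos.mpr (Nat.pos_of_ne_zero h.1)) (Nat.cast_pos.mpr (Nat.pos_of_ne_zero h.2))

end defs

/-- A short exact sequence `0 → A' → A → A'' → 0` compatible with pairs of endomorphisms. -/
structure HQExact {A' A A'' : Type*} [AddCommGroup A'] [AddCommGroup A] [AddCommGroup A'']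
    (i : A' →+ A) (π : A →+ A'') (f' g' : A' →+ A') (f g : A →+ A) (f'' g'' : A'' →+ A'') :
    Prop where
  inj : Function.Injective i
  surj : Function.Surjective π
  exact : i.range = π.ker
  f_i : ∀ x, f (i x) = i (f' x)
  g_i : ∀ x, g (i x) = i (g' x)
  π_f : ∀ x, π (f x) = f'' (π x)
  π_g : ∀ x, π (g x) = g'' (π x)
  fg : ∀ x, f (g x) = 0
  gf : ∀ x, g (f x) = 0

namespace HQExact

variable {A' A A'' : Type*} [AddCommGroup A'] [AddCommGroup A] [AddCommGroup A'']
  {i : A' →+ A} {π : A →+ A''} {f' g' : A' →+ A'} {f g : A →+ A} {f'' g'' : A'' →+ A''}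

/-- The roles of `f` and `g` are symmetric. -/
theorem swap (h : HQExact i π f' g' f g f'' g'') : HQExact i π g' f' g f g'' f'' :=
  ⟨h.inj, h.surj, h.exact, h.g_i, h.f_i, h.π_g, h.π_f, h.gf, h.fg⟩

/-- The defect `δ_f = [ker f'' : π (ker f)]`. -/
noncomputable def defect (_h : HQExact i π f' g' f g f'' g'') : ℕ :=
  (f.ker.map π).relIndex f''.ker

/-- (E3) `[ker f'' : π ker f] = [f A ∩ i A' : i f' A']` (connecting isomorphism `π x ↦ f x`). -/
theorem defect_eq (h : HQExact i π f' g' f g f'' g'') :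
    h.defect = (f'.range.map i).relIndex (f.range ⊓ i.range) := by
  have e1 : (f.ker ⊔ i.range).relIndex (f''.ker.comap π) = (f.ker.map π).relIndex f''.ker := by
    apply relIndex_eq_of_map π
    · rintro y ⟨x, hx, rfl⟩
      rw [AddMonoidHom.mem_ker, ← h.π_f, AddMonoidHom.mem_ker.mp hx, map_zero]
    · intro x hx
      exact hx
    · intro y hy
      obtain ⟨x, rfl⟩ := h.surj y
      exact ⟨x, hy, by rw [sub_self]; exact zero_mem _⟩
    · intro x _
      constructor
      · intro hx'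
        obtain ⟨a, ha, b, hb, rfl⟩ := AddSubgroup.mem_sup.mp hx'
        refine ⟨a, ha, ?_⟩
        rw [h.exact] at hb
        rw [map_add, AddMonoidHom.mem_ker.mp hb, add_zero]
      · rintro ⟨a, ha, hax⟩
        have hk : x - a ∈ i.range := by
          rw [h.exact, AddMonoidHom.mem_ker, map_sub, hax, sub_self]
        exact AddSubgroup.mem_sup.mpr ⟨a, ha, x - a, hk, by abel⟩
  have e2 : (f.ker ⊔ i.range).relIndex (f''.ker.comap π) =
      (f'.range.map i).relIndex (f.range ⊓ i.range) := by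
    apply relIndex_eq_of_map f
    · rintro y ⟨x, ⟨a, rfl⟩, rfl⟩
      exact AddSubgroup.mem_inf.mpr ⟨⟨i a, h.f_i a⟩, ⟨f' a, rfl⟩⟩
    · intro x hx
      refine AddSubgroup.mem_inf.mpr ⟨⟨x, rfl⟩, ?_⟩
      rw [h.exact, AddMonoidHom.mem_ker, h.π_f]
      exact hx
    · intro y hy
      obtain ⟨⟨x, rfl⟩, hy2⟩ := AddSubgroup.mem_inf.mp hy
      refine ⟨x, ?_, by rw [sub_self]; exact zero_mem _⟩
      rw [h.exact, AddMonoidHom.mem_ker, h.π_f] at hy2
      exact hy2
    · intro x _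
      constructor
      · intro hx'
        obtain ⟨a, ha, b, ⟨c, rfl⟩, rfl⟩ := AddSubgroup.mem_sup.mp hx'
        refine ⟨f' c, ⟨c, rfl⟩, ?_⟩
        rw [map_add, AddMonoidHom.mem_ker.mp ha, zero_add, h.f_i]
      · rintro ⟨_, ⟨c, rfl⟩, hc⟩
        have hk : x - i c ∈ f.ker := by
          rw [AddMonoidHom.mem_ker, map_sub, h.f_i, hc, sub_self]
        exact AddSubgroup.mem_sup.mpr ⟨x - i c, hk, i c, ⟨c, rfl⟩, by abel⟩
  rw [defect, ← e1, e2]

/-- `π (g A) = g'' A''`. -/
private theorem herbrand_map_range (h : HQExact i π f' g' f g f'' g'') :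
    g.range.map π = g''.range := by
  ext y
  constructor
  · rintro ⟨_, ⟨x, rfl⟩, rfl⟩
    exact ⟨π x, (h.π_g x).symm⟩
  · rintro ⟨z, rfl⟩
    obtain ⟨x, rfl⟩ := h.surj z
    exact ⟨g x, ⟨x, rfl⟩, h.π_g x⟩

/-- `ker f ∩ ker π = i (ker f')`. -/
private theorem herbrand_ker_inf (h : HQExact i π f' g' f g f'' g'') :
    f.ker ⊓ π.ker = f'.ker.map i := by
  ext y
  rw [← h.exact]
  constructor
  · intro hy
    obtain ⟨hy1, ⟨a, rfl⟩⟩ := AddSubgroup.mem_inf.mp hy
    refine ⟨a, ?_, rfl⟩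
    rw [AddMonoidHom.mem_ker, h.f_i] at hy1
    exact AddMonoidHom.mem_ker.mpr (h.inj (by rw [hy1, map_zero]))
  · rintro ⟨a, ha, rfl⟩
    refine AddSubgroup.mem_inf.mpr ⟨?_, ⟨a, rfl⟩⟩
    rw [AddMonoidHom.mem_ker, h.f_i, AddMonoidHom.mem_ker.mp ha, map_zero]

/-- (a) `[ker f'' : g'' A''] = [π ker f : g'' A''] * δ_f`. -/
private theorem herbrand_fact_right (h : HQExact i π f' g' f g f'' g'') :
    hnum f'' g'' = g''.range.relIndex (f.ker.map π) * h.defect := by
  rw [hnum, defect]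
  refine (AddSubgroup.relIndex_mul_relIndex _ _ _ ?_ ?_).symm
  · rw [← herbrand_map_range h]
    apply AddSubgroup.map_mono
    rintro _ ⟨x, rfl⟩
    exact h.fg x
  · rintro y ⟨x, hx, rfl⟩
    rw [AddMonoidHom.mem_ker, ← h.π_f, AddMonoidHom.mem_ker.mp hx, map_zero]

/-- (b) `[ker f' : g' A'] = δ_g * [i ker f' : g A ∩ i A']`. -/
private theorem herbrand_fact_left (h : HQExact i π f' g' f g f'' g'') :
    hnum f' g' = h.swap.defect * (g.range ⊓ i.range).relIndex (f'.ker.map i) := by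
  rw [hnum, h.swap.defect_eq, ← AddSubgroup.relIndex_map_map_of_injective _ _ h.inj]
  refine (AddSubgroup.relIndex_mul_relIndex _ _ _ ?_ ?_).symm
  · rintro y ⟨x, ⟨a, rfl⟩, rfl⟩
    exact AddSubgroup.mem_inf.mpr ⟨⟨i a, h.g_i a⟩, ⟨g' a, rfl⟩⟩
  · rw [← herbrand_ker_inf h, ← h.exact]
    apply inf_le_inf_right
    rintro _ ⟨x, rfl⟩
    exact h.fg x

/-- (c) `[ker f : g A] = [π ker f : g'' A''] * [i ker f' : g A ∩ i A']`. -/
private theorem herbrand_fact_mid (h : HQExact i π f' g' f g f'' g'') :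
    hnum f g = g''.range.relIndex (f.ker.map π) * (g.range ⊓ i.range).relIndex (f'.ker.map i) := by
  have hle : g.range ≤ f.ker := by
    rintro _ ⟨x, rfl⟩
    exact h.fg x
  rw [hnum, relIndex_eq_map_mul_inf_ker π g.range f.ker hle, herbrand_map_range h,
    herbrand_ker_inf h, h.exact]

/-- (E1) `[ker f'' : im g''] * [ker f' : im g'] = [ker f : im g] * δ_f * δ_g`. -/
theorem hnum_mul_hnum (h : HQExact i π f' g' f g f'' g'') :
    hnum f'' g'' * hnum f' g' = hnum f g * (h.defect * h.swap.defect) := by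
  rw [herbrand_fact_right h, herbrand_fact_left h, herbrand_fact_mid h]
  ring

/-- `δ_f` divides `[ker f'' : im g'']`. -/
theorem defect_dvd_right (h : HQExact i π f' g' f g f'' g'') : h.defect ∣ hnum f'' g'' := by
  rw [herbrand_fact_right h]
  exact Dvd.intro_left _ rfl

/-- `δ_f` divides `[ker g' : im f']`. -/
theorem defect_dvd_left (h : HQExact i π f' g' f g f'' g'') : h.defect ∣ hnum g' f' := by
  rw [herbrand_fact_left h.swap]
  exact Dvd.intro _ rfl

theorem defined_mid (h : HQExact i π f' g' f g f'' g'')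
    (h' : HQDefined f' g') (h'' : HQDefined f'' g'') : HQDefined f g := by
  constructor
  · intro h0
    have := h.hnum_mul_hnum
    rw [h0, zero_mul] at this
    exact mul_ne_zero h''.1 h'.1 this
  · intro h0
    have := h.swap.hnum_mul_hnum
    rw [h0, zero_mul] at this
    exact mul_ne_zero h''.2 h'.2 this

theorem defined_right (h : HQExact i π f' g' f g f'' g'')
    (h' : HQDefined f' g') (h0 : HQDefined f g) : HQDefined f'' g'' := by
  have d1 : h.defect ≠ 0 := fun hd => h'.2 (Nat.eq_zero_of_zero_dvd (hd ▸ h.defect_dvd_left))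
  have d2 : h.swap.defect ≠ 0 :=
    fun hd => h'.1 (Nat.eq_zero_of_zero_dvd (hd ▸ h.swap.defect_dvd_left))
  constructor
  · intro hz
    have := h.hnum_mul_hnum
    rw [hz, zero_mul] at this
    exact mul_ne_zero h0.1 (mul_ne_zero d1 d2) this.symm
  · intro hz
    have := h.swap.hnum_mul_hnum
    rw [hz, zero_mul] at this
    exact mul_ne_zero h0.2 (mul_ne_zero d2 d1) this.symm

theorem defined_left (h : HQExact i π f' g' f g f'' g'')
    (h0 : HQDefined f g) (h'' : HQDefined f'' g'') : HQDefined f' g' := by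
  have d1 : h.defect ≠ 0 := fun hd => h''.1 (Nat.eq_zero_of_zero_dvd (hd ▸ h.defect_dvd_right))
  have d2 : h.swap.defect ≠ 0 :=
    fun hd => h''.2 (Nat.eq_zero_of_zero_dvd (hd ▸ h.swap.defect_dvd_right))
  constructor
  · intro hz
    have := h.hnum_mul_hnum
    rw [hz, mul_zero] at this
    exact mul_ne_zero h0.1 (mul_ne_zero d1 d2) this.symm
  · intro hz
    have := h.swap.hnum_mul_hnum
    rw [hz, mul_zero] at this
    exact mul_ne_zero h0.2 (mul_ne_zero d2 d1) this.symm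

/-- (HQ1) multiplicativity of the Herbrand quotient. -/
theorem hq_eq (h : HQExact i π f' g' f g f'' g'')
    (h' : HQDefined f' g') (h'' : HQDefined f'' g'') : hq f g = hq f' g' * hq f'' g'' := by
  have h0 := h.defined_mid h' h''
  have d1 : h.defect ≠ 0 := fun hd => h''.1 (Nat.eq_zero_of_zero_dvd (hd ▸ h.defect_dvd_right))
  have d2 : h.swap.defect ≠ 0 :=
    fun hd => h''.2 (Nat.eq_zero_of_zero_dvd (hd ▸ h.swap.defect_dvd_right))
  have e1 : (hnum f'' g'' : ℚ) * hnum f' g' = hnum f g * (h.defect * h.swap.defect) := by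
    exact_mod_cast h.hnum_mul_hnum
  have e2 : (hnum g'' f'' : ℚ) * hnum g' f' = hnum g f * (h.swap.defect * h.defect) := by
    exact_mod_cast h.swap.hnum_mul_hnum
  have c1 : (hnum g f : ℚ) ≠ 0 := Nat.cast_ne_zero.mpr h0.2
  have c2 : (hnum g' f' : ℚ) ≠ 0 := Nat.cast_ne_zero.mpr h'.2
  have c3 : (hnum g'' f'' : ℚ) ≠ 0 := Nat.cast_ne_zero.mpr h''.2
  have c4 : (h.defect : ℚ) ≠ 0 := Nat.cast_ne_zero.mpr d1
  have c5 : (h.swap.defect : ℚ) ≠ 0 := Nat.cast_ne_zero.mpr d2
  rw [hq, hq, hq, div_mul_div_comm, div_eq_div_iff c1 (mul_ne_zero c2 c3)]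
  apply mul_left_cancel₀ (mul_ne_zero c4 c5)
  linear_combination (-((hnum g' f' : ℚ) * hnum g'' f'')) * e1 +
    ((hnum f' g' : ℚ) * hnum f'' g'') * e2

end HQExact

end Fermat.Agent.S55.HQ
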