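import Fermat.Agent.S55.HQ.Herbrand

/-!
# S55-HQ : further properties of the Herbrand quotient (finite groups, `q_{0,fg} = q_{0,f} q_{0,g}`)
-/

namespace Fermat.Agent.S55.HQ

section more

variable {A : Type*} [AddCommGroup A]

private theorem herbrandMore_card_ker_mul_card_range (f : A →+ A) :
    Nat.card f.ker * Nat.card f.range = Nat.card A := by
  rw [← AddSubgroup.index_ker f]
  exact AddSubgroup.card_mul_index f.ker

/-- (HQ1) the Herbrand quotient of a finite group is `1`. -/
theorem hq_of_finite [Finite A] (f g : A →+ A) (hfg : ∀ x, f (g x) = 0) (hgf : ∀ x, g (f x) = 0) :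
    HQDefined f g ∧ hq f g = 1 := by
  have h1 : g.range ≤ f.ker := by
    rintro _ ⟨x, rfl⟩
    exact hfg x
  have h2 : f.range ≤ g.ker := by
    rintro _ ⟨x, rfl⟩
    exact hgf x
  have e1 : Nat.card f.ker = hnum f g * Nat.card g.range := card_eq_relIndex_mul_card _ _ h1
  have e2 : Nat.card g.ker = hnum g f * Nat.card f.range := card_eq_relIndex_mul_card _ _ h2
  have c1 := herbrandMore_card_ker_mul_card_range f
  have c2 := herbrandMore_card_ker_mul_card_range g
  have hA : Nat.card A ≠ 0 := Nat.card_pos.ne'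
  have hkf : Nat.card f.ker ≠ 0 := Nat.card_pos.ne'
  have hkg : Nat.card g.ker ≠ 0 := Nat.card_pos.ne'
  have hrf : Nat.card f.range ≠ 0 := Nat.card_pos.ne'
  have hrg : Nat.card g.range ≠ 0 := Nat.card_pos.ne'
  have n1 : hnum f g ≠ 0 := by
    intro h
    rw [h, zero_mul] at e1
    exact hkf e1
  have n2 : hnum g f ≠ 0 := by
    intro h
    rw [h, zero_mul] at e2
    exact hkg e2
  have key : hnum f g = hnum g f := by
    have : hnum f g * (Nat.card g.range * Nat.card f.range)
        = hnum g f * (Nat.card g.range * Nat.card f.range) := by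
      calc hnum f g * (Nat.card g.range * Nat.card f.range)
          = (hnum f g * Nat.card g.range) * Nat.card f.range := by ring
        _ = Nat.card A := by rw [← e1, c1]
        _ = (hnum g f * Nat.card f.range) * Nat.card g.range := by rw [← e2, c2]
        _ = hnum g f * (Nat.card g.range * Nat.card f.range) := by ring
    exact Nat.eq_of_mul_eq_mul_right (Nat.pos_of_ne_zero (mul_ne_zero hrg hrf)) this
  refine ⟨⟨n1, n2⟩, ?_⟩
  unfold hq
  rw [key]
  exact div_self (by exact_mod_cast n2)

theorem hq_zero_of_bijective (u : A →+ A) (hu : Function.Bijective u) :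
    HQDefined 0 u ∧ hq 0 u = 1 := by
  have h1 : hnum 0 u = 1 := by
    rw [hnum_zero_left, AddMonoidHom.range_eq_top.2 hu.2, AddSubgroup.index_top]
  have h2 : hnum u 0 = 1 := by
    rw [hnum_zero_right, (AddMonoidHom.ker_eq_bot_iff u).2 hu.1]
    exact AddSubgroup.card_bot
  refine ⟨⟨by rw [h1]; exact one_ne_zero, by rw [h2]; exact one_ne_zero⟩, ?_⟩
  unfold hq
  rw [h1, h2]
  norm_num

/-- `q_{0, f ∘ g} = q_{0,f} q_{0,g}`. -/
theorem hq_zero_comp (f g : A →+ A) (hf : HQDefined 0 f) (hg : HQDefined 0 g) :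
    HQDefined 0 (f.comp g) ∧ hq 0 (f.comp g) = hq 0 f * hq 0 g := by
  obtain ⟨hf1, hf2⟩ := hf
  obtain ⟨hg1, hg2⟩ := hg
  -- abbreviations
  set r : ℕ := (f.comp g).range.relIndex f.range with hr
  set s : ℕ := (g.range ⊓ f.ker).relIndex f.ker with hs
  set t : ℕ := Nat.card ↥(g.range ⊓ f.ker) with ht
  have hle : (f.comp g).range ≤ f.range := by
    rintro _ ⟨x, rfl⟩
    exact ⟨g x, rfl⟩
  have I_fg : hnum 0 (f.comp g) = r * hnum 0 f := by
    rw [hnum_zero_left, hnum_zero_left, hr]
    exact (AddSubgroup.relIndex_mul_index hle).symm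
  have I_g : hnum 0 g = r * s := by
    rw [hnum_zero_left, ← AddSubgroup.relIndex_top_right,
      relIndex_eq_map_mul_inf_ker f g.range ⊤ le_top, hr, hs]
    congr 1
    · congr 1
      · exact (AddMonoidHom.map_range f g)
      · exact (AddMonoidHom.range_eq_map f).symm
    · rw [top_inf_eq]
  have K_fg : hnum (f.comp g) 0 = t * hnum g 0 := by
    rw [hnum_zero_right, hnum_zero_right,
      card_eq_card_map_mul_card_inf_ker g (f.comp g).ker, ht]
    have e1 : (f.comp g).ker.map g = g.range ⊓ f.ker := by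
      ext y
      constructor
      · rintro ⟨x, hx, rfl⟩
        exact ⟨⟨x, rfl⟩, hx⟩
      · rintro ⟨⟨x, rfl⟩, hx⟩
        exact ⟨x, hx, rfl⟩
    have e2 : (f.comp g).ker ⊓ g.ker = g.ker := by
      apply inf_eq_right.2
      intro x hx
      have hx' : g x = 0 := hx
      change f (g x) = 0
      rw [hx', map_zero]
    rw [e1, e2]
  have K_f : hnum f 0 = s * t := by
    rw [hnum_zero_right, hs, ht]
    exact card_eq_relIndex_mul_card _ _ inf_le_right
  have hr0 : r ≠ 0 := by
    intro h
    rw [h, zero_mul] at I_g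
    exact hg1 I_g
  have hs0 : s ≠ 0 := by
    intro h
    rw [h, mul_zero] at I_g
    exact hg1 I_g
  have ht0 : t ≠ 0 := by
    intro h
    rw [h, mul_zero] at K_f
    exact hf2 K_f
  refine ⟨⟨by rw [I_fg]; exact mul_ne_zero hr0 hf1, by rw [K_fg]; exact mul_ne_zero ht0 hg2⟩, ?_⟩
  unfold hq
  rw [I_fg, K_fg, I_g, K_f]
  have hr' : (r : ℚ) ≠ 0 := by exact_mod_cast hr0
  have hs' : (s : ℚ) ≠ 0 := by exact_mod_cast hs0
  have ht' : (t : ℚ) ≠ 0 := by exact_mod_cast ht0
  have hg2' : (hnum g 0 : ℚ) ≠ 0 := by exact_mod_cast hg2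
  push_cast
  field_simp

/-- If `q_{0, f ∘ g}` is defined and `f`, `g` commute then `q_{0,f}` is defined. -/
theorem defined_zero_of_comp (f g : A →+ A) (hcomm : ∀ x, f (g x) = g (f x))
    (h : HQDefined 0 (f.comp g)) : HQDefined 0 f := by
  obtain ⟨h1, h2⟩ := h
  rw [hnum_zero_left] at h1
  rw [hnum_zero_right] at h2
  have hle : (f.comp g).range ≤ f.range := by
    rintro _ ⟨x, rfl⟩
    exact ⟨g x, rfl⟩
  have hle2 : f.ker ≤ (f.comp g).ker := by
    intro x hx
    have hx' : f x = 0 := hx
    change f (g x) = 0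
    rw [hcomm, hx', map_zero]
  refine ⟨?_, ?_⟩
  · rw [hnum_zero_left]
    exact ne_zero_of_dvd_ne_zero h1 (AddSubgroup.index_dvd_of_le hle)
  · rw [hnum_zero_right]
    exact ne_zero_of_dvd_ne_zero h2 (AddSubgroup.card_dvd_of_le hle2)

/-- Iterates: `q_{0, f^n} = q_{0,f}^n`. -/
theorem hq_zero_iterate (f : A →+ A) (hf : HQDefined 0 f) (n : ℕ) (F : A →+ A)
    (hF : ∀ x, F x = f^[n] x) : HQDefined 0 F ∧ hq 0 F = hq 0 f ^ n := by
  induction n generalizing F with
  | zero =>
    have hb : Function.Bijective F := by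
      have : (F : A → A) = id := by
        funext x
        rw [hF x]
        rfl
      rw [this]
      exact Function.bijective_id
    obtain ⟨h1, h2⟩ := hq_zero_of_bijective F hb
    exact ⟨h1, by rw [h2, pow_zero]⟩
  | succ n ih =>
    obtain ⟨G, hG⟩ : ∃ G : A →+ A, ∀ x, G x = f^[n] x := by
      let φ : AddMonoid.End A := f
      refine ⟨(φ ^ n : AddMonoid.End A), fun x => ?_⟩
      exact congrFun (AddMonoid.End.coe_pow A φ n) x
    obtain ⟨d, e⟩ := ih G hG
    have hFG : F = G.comp f := by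
      ext x
      rw [hF x, Function.iterate_succ_apply, AddMonoidHom.comp_apply, hG]
    obtain ⟨d', e'⟩ := hq_zero_comp G f d hf
    rw [hFG]
    exact ⟨d', by rw [e', e, pow_succ]⟩

/-- Transport along an isomorphism. -/
theorem hq_congr {B : Type*} [AddCommGroup B] (e : A ≃+ B) (f g : A →+ A) (f' g' : B →+ B)
    (hf : ∀ x, e (f x) = f' (e x)) (hg : ∀ x, e (g x) = g' (e x)) :
    hnum f g = hnum f' g' ∧ hnum g f = hnum g' f' := by
  have aux : ∀ (f g : A →+ A) (f' g' : B →+ B), (∀ x, e (f x) = f' (e x)) →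
      (∀ x, e (g x) = g' (e x)) → hnum f g = hnum f' g' := by
    intro f g f' g' hf hg
    have hr : g.range.map e.toAddMonoidHom = g'.range := by
      ext y
      constructor
      · rintro ⟨_, ⟨x, rfl⟩, rfl⟩
        exact ⟨e x, (hg x).symm⟩
      · rintro ⟨x, rfl⟩
        refine ⟨g (e.symm x), ⟨_, rfl⟩, ?_⟩
        change e (g (e.symm x)) = g' x
        rw [hg, e.apply_symm_apply]
    have hk : f.ker.map e.toAddMonoidHom = f'.ker := by
      ext y
      constructor
      · rintro ⟨x, hx, rfl⟩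
        have hx' : f x = 0 := hx
        change f' (e x) = 0
        rw [← hf, hx', map_zero]
      · intro hy
        have hy' : f' y = 0 := hy
        refine ⟨e.symm y, ?_, e.apply_symm_apply y⟩
        change f (e.symm y) = 0
        apply e.injective
        rw [hf, e.apply_symm_apply, hy', map_zero]
    unfold hnum
    rw [← hr, ← hk]
    exact (AddSubgroup.relIndex_map_map_of_injective _ _ e.injective).symm
  exact ⟨aux f g f' g' hf hg, aux g f g' f' hg hf⟩

end more

end Fermat.Agent.S55.HQ
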