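import Mathlib

/-!
# S55-HQ : index lemmas for additive commutative groups

All indices are `AddSubgroup.relIndex` / `AddSubgroup.index` / `Nat.card`, i.e. natural numbers with
the convention "infinite = 0".  All identities below hold unconditionally with this convention.
-/

namespace Fermat.Agent.S55.HQ

variable {A B : Type*} [AddCommGroup A] [AddCommGroup B]

/-- auxiliary form of `relIndex_eq_of_map` (stated first because it is used for the first lemma). -/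
private theorem index_relIndex_eq_of_map_aux (φ : A →+ B) (X₁ X : AddSubgroup A)
    (Y₁ Y : AddSubgroup B)
    (hmap : ∀ x ∈ X, φ x ∈ Y)
    (hsurj : ∀ y ∈ Y, ∃ x ∈ X, y - φ x ∈ Y₁)
    (hpre : ∀ x ∈ X, (x ∈ X₁ ↔ φ x ∈ Y₁)) :
    X₁.relIndex X = Y₁.relIndex Y := by
  let φ' : X →+ Y := (φ.comp X.subtype).codRestrict Y (fun x => hmap x.1 x.2)
  let ψ : X →+ Y ⧸ (Y₁.addSubgroupOf Y) := (QuotientAddGroup.mk' _).comp φ'
  have hker : ψ.ker = X₁.addSubgroupOf X := by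
    ext x
    rw [AddMonoidHom.mem_ker, AddSubgroup.mem_addSubgroupOf]
    show (QuotientAddGroup.mk (φ' x) : Y ⧸ (Y₁.addSubgroupOf Y)) = 0 ↔ _
    rw [QuotientAddGroup.eq_zero_iff, AddSubgroup.mem_addSubgroupOf]
    exact (hpre x.1 x.2).symm
  have hs : Function.Surjective ψ := by
    intro q
    obtain ⟨y, rfl⟩ := QuotientAddGroup.mk_surjective q
    obtain ⟨x, hx, hxy⟩ := hsurj y.1 y.2
    refine ⟨⟨x, hx⟩, ?_⟩
    show (QuotientAddGroup.mk (φ' ⟨x, hx⟩) : Y ⧸ (Y₁.addSubgroupOf Y)) = QuotientAddGroup.mk y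
    rw [QuotientAddGroup.eq, AddSubgroup.mem_addSubgroupOf]
    have : ((-(φ' ⟨x, hx⟩) + y : Y) : B) = y.1 - φ x := by
      show -(φ x) + y.1 = y.1 - φ x
      abel
    rw [this]
    exact hxy
  rw [AddSubgroup.relIndex, AddSubgroup.relIndex, ← hker, AddSubgroup.index_ker,
    AddMonoidHom.range_eq_top.mpr hs, AddSubgroup.index]
  exact Nat.card_congr AddSubgroup.topEquiv.toEquiv

/-- `[X : X₁] = [φ X : φ X₁] * [X ∩ ker φ : X₁ ∩ ker φ]`. -/
theorem relIndex_eq_map_mul_inf_ker (φ : A →+ B) (X₁ X : AddSubgroup A) (h : X₁ ≤ X) :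
    X₁.relIndex X = (X₁.map φ).relIndex (X.map φ) * (X₁ ⊓ φ.ker).relIndex (X ⊓ φ.ker) := by
  have h1 : X₁ ≤ X₁ ⊔ (X ⊓ φ.ker) := le_sup_left
  have h2 : X₁ ⊔ (X ⊓ φ.ker) ≤ X := sup_le h inf_le_left
  have e1 : (X₁ ⊔ (X ⊓ φ.ker)).relIndex X = (X₁.map φ).relIndex (X.map φ) := by
    apply index_relIndex_eq_of_map_aux φ
    · intro x hx
      exact AddSubgroup.mem_map_of_mem φ hx
    · rintro y ⟨x, hx, rfl⟩
      exact ⟨x, hx, by rw [sub_self]; exact zero_mem _⟩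
    · intro x hx
      constructor
      · intro hx'
        obtain ⟨a, ha, b, hb, rfl⟩ := AddSubgroup.mem_sup.mp hx'
        refine ⟨a, ha, ?_⟩
        rw [map_add, AddMonoidHom.mem_ker.mp hb.2, add_zero]
      · rintro ⟨a, ha, hax⟩
        have hk : x - a ∈ X ⊓ φ.ker := by
          refine AddSubgroup.mem_inf.mpr ⟨sub_mem hx (h ha), ?_⟩
          rw [AddMonoidHom.mem_ker, map_sub, hax, sub_self]
        exact AddSubgroup.mem_sup.mpr ⟨a, ha, x - a, hk, by abel⟩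
  have e2 : (X₁ ⊓ φ.ker).relIndex (X ⊓ φ.ker) = X₁.relIndex (X₁ ⊔ (X ⊓ φ.ker)) := by
    apply index_relIndex_eq_of_map_aux (AddMonoidHom.id A)
    · intro x hx
      exact AddSubgroup.mem_sup_right hx
    · intro y hy
      obtain ⟨a, ha, b, hb, rfl⟩ := AddSubgroup.mem_sup.mp hy
      exact ⟨b, hb, by simpa using ha⟩
    · intro x hx
      exact ⟨fun hx' => (AddSubgroup.mem_inf.mp hx').1,
        fun hx' => AddSubgroup.mem_inf.mpr ⟨hx', (AddSubgroup.mem_inf.mp hx).2⟩⟩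
  rw [← AddSubgroup.relIndex_mul_relIndex _ _ _ h1 h2, mul_comm, e1, e2]

/-- A "connecting isomorphism" in index form.  `φ : A →+ B`, `X₁ ≤ X ≤ A`, `Y₁ ≤ Y ≤ B` with
`φ X = Y` modulo..., precisely: `φ` maps `X` onto `Y` modulo `Y₁` and `X₁` is the preimage of `Y₁`
in `X`.  Then `[X : X₁] = [Y : Y₁]`. -/
theorem relIndex_eq_of_map (φ : A →+ B) (X₁ X : AddSubgroup A) (Y₁ Y : AddSubgroup B)
    (hY : Y₁ ≤ Y)
    (hmap : ∀ x ∈ X, φ x ∈ Y)
    (hsurj : ∀ y ∈ Y, ∃ x ∈ X, y - φ x ∈ Y₁)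
    (hpre : ∀ x ∈ X, (x ∈ X₁ ↔ φ x ∈ Y₁)) :
    X₁.relIndex X = Y₁.relIndex Y :=
  have _ := hY
  index_relIndex_eq_of_map_aux φ X₁ X Y₁ Y hmap hsurj hpre

/-- `#X = #(φ X) * #(X ∩ ker φ)`. -/
theorem card_eq_card_map_mul_card_inf_ker (φ : A →+ B) (X : AddSubgroup A) :
    Nat.card X = Nat.card (X.map φ) * Nat.card ↥(X ⊓ φ.ker) := by
  have := relIndex_eq_map_mul_inf_ker φ ⊥ X bot_le
  rwa [AddSubgroup.map_bot, bot_inf_eq, AddSubgroup.relIndex_bot_left,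
    AddSubgroup.relIndex_bot_left, AddSubgroup.relIndex_bot_left] at this

/-- `#X = [X : X₁] * #X₁` for `X₁ ≤ X`. -/
theorem card_eq_relIndex_mul_card (X₁ X : AddSubgroup A) (h : X₁ ≤ X) :
    Nat.card X = X₁.relIndex X * Nat.card X₁ := by
  have := AddSubgroup.relIndex_mul_relIndex ⊥ X₁ X bot_le h
  rw [AddSubgroup.relIndex_bot_left, AddSubgroup.relIndex_bot_left] at this
  rw [← this, mul_comm]

end Fermat.Agent.S55.HQ
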