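import Fermat.Agent.S55.HQ.Normalize

/-!
# S55-HQ : (HQ4) inflation-restriction in degree 2

`0 → H^2(G/H, M^H) → H^2(G, M) → H^2(H, M)` is exact if `H^1(H, M) = 0`.

Formulation without quotient groups / fixed-point submodules:  `π : G →* Q` surjective, `H = ker π`,
`ι : M' →* M` injective, `Q` acts on `M'`, `ι (π g • m') = g • ι m'`, and the image of `ι` is `M^H`.
(Application: `G = Gal(K/F)`, `Q = Gal(E/F)`, `M = Kˣ`, `M' = Eˣ`.)
-/

namespace Fermat.Agent.S55.HQ

open groupCohomology

variable {G Q M M' : Type*} [Group G] [Group Q] [CommGroup M] [CommGroup M']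
  [MulDistribMulAction G M] [MulDistribMulAction Q M']

/-- The data of an "inflation situation". -/
structure InfData (π : G →* Q) (ι : M' →* M) : Prop where
  surj : Function.Surjective π
  inj : Function.Injective ι
  equiv : ∀ (g : G) (m : M'), ι (π g • m) = g • ι m
  fixed : ∀ m : M, (∀ h ∈ π.ker, h • m = m) → m ∈ ι.range
  /-- `H^1(H, M) = 0`. -/
  h1 : ∀ x : π.ker → M, IsMulCocycle₁ x → IsMulCoboundary₁ x

/-- Inflation of a 2-cochain. -/
def infl (π : G →* Q) (ι : M' →* M) (f : Q × Q → M') : G × G → M := fun x => ι (f (π x.1, π x.2))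

omit [MulDistribMulAction G M] [MulDistribMulAction Q M'] in
@[simp] theorem infl_apply (π : G →* Q) (ι : M' →* M) (f : Q × Q → M') (g h : G) :
    infl π ι f (g, h) = ι (f (π g, π h)) := rfl

theorem isMulCocycle₂_infl {π : G →* Q} {ι : M' →* M}
    (hequiv : ∀ (g : G) (m : M'), ι (π g • m) = g • ι m) {f : Q × Q → M'}
    (hf : IsMulCocycle₂ f) : IsMulCocycle₂ (infl π ι f) := by
  intro g h j
  simp only [infl_apply, map_mul]
  rw [← map_mul, hf (π g) (π h) (π j), map_mul, hequiv]

theorem isMulCoboundary₂_infl {π : G →* Q} {ι : M' →* M}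
    (hequiv : ∀ (g : G) (m : M'), ι (π g • m) = g • ι m) {f : Q × Q → M'}
    (hf : IsMulCoboundary₂ f) : IsMulCoboundary₂ (infl π ι f) := by
  obtain ⟨x, hx⟩ := hf
  refine ⟨fun g => ι (x (π g)), fun g h => ?_⟩
  simp only [infl_apply, map_mul]
  rw [← hx (π g) (π h), map_mul, map_div, hequiv]

omit [MulDistribMulAction G M] in
private theorem infres_eq_of_one {a b c : M} (h : a / b * c = 1) : b = a * c := by
  rw [div_mul_eq_mul_div, div_eq_one] at h
  exact h.symm

omit [MulDistribMulAction G M] in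
private theorem infres_id1 (a b c : M) : (a / b) / (c / b) * (c / a) = 1 := by
  rw [div_div_div_cancel_right, div_mul_div_cancel, div_self']

/-- conjugation trick: `h * g = g * (g⁻¹ * h * g)` with the second factor in the kernel. -/
private theorem infres_conj (π : G →* Q) (g : G) {h : G} (hh : h ∈ π.ker) :
    g⁻¹ * h * g ∈ π.ker ∧ h * g = g * (g⁻¹ * h * g) := by
  refine ⟨?_, by group⟩
  rw [MonoidHom.mem_ker] at hh ⊢
  simp [hh]

private theorem infres_core_a {π : G →* Q} {ι : M' →* M} (D : InfData π ι) {f : Q × Q → M'}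
    (h1 : ∀ q, f (1, q) = 1) (h2 : ∀ q, f (q, 1) = 1) (x : G → M)
    (hx : ∀ g h, g • x h / x (g * h) * x g = ι (f (π g, π h))) : IsMulCoboundary₂ f := by
  have hc : IsMulCocycle₁ (fun h : π.ker => x h) := by
    intro h h'
    have := hx h h'
    rw [(MonoidHom.mem_ker).1 h.2, h1, map_one] at this
    exact infres_eq_of_one this
  obtain ⟨m, hm⟩ := D.h1 _ hc
  have hyd : ∀ g h, g • (x h * (m / h • m)) / (x (g * h) * (m / (g * h) • m)) * (x g * (m / g • m))
      = ι (f (π g, π h)) := by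
    intro g h
    rw [← hx g h, smul_mul', smul_div', mul_smul]
    have := infres_id1 (g • m) (g • h • m) m
    calc g • x h * (g • m / g • h • m) / (x (g * h) * (m / g • h • m)) * (x g * (m / g • m))
        = (g • x h / x (g * h) * x g) * ((g • m / g • h • m) / (m / g • h • m) * (m / g • m)) := by
          rw [mul_div_mul_comm, mul_mul_mul_comm]
      _ = _ := by rw [this, mul_one]
  generalize hy : (fun g => x g * (m / g • m)) = y at *
  have hyd' : ∀ g h, g • y h / y (g * h) * y g = ι (f (π g, π h)) := by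
    intro g h
    rw [← hy]
    exact hyd g h
  have hyH : ∀ h ∈ π.ker, y h = 1 := by
    intro h hh
    have this : h • m / m = x h := hm ⟨h, hh⟩
    rw [← hy]
    show x h * (m / h • m) = 1
    rw [← this, div_mul_div_cancel, div_self']
  have hyr : ∀ g, ∀ h ∈ π.ker, y (g * h) = y g := by
    intro g h hh
    have := hyd' g h
    rw [(MonoidHom.mem_ker).1 hh, h2, map_one, hyH h hh, smul_one] at this
    have := infres_eq_of_one this
    rw [this, one_mul]
  have hyl : ∀ g, ∀ h ∈ π.ker, y (h * g) = h • y g := by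
    intro g h hh
    have := hyd' h g
    rw [(MonoidHom.mem_ker).1 hh, h1, map_one, hyH h hh] at this
    have := infres_eq_of_one this
    rw [this, mul_one]
  have hfix : ∀ g, ∀ h ∈ π.ker, h • y g = y g := by
    intro g h hh
    obtain ⟨hk, he⟩ := infres_conj π g hh
    rw [← hyl g h hh, he, hyr g _ hk]
  have hdep : ∀ g g', π g = π g' → y g = y g' := by
    intro g g' hgg
    have hk : g⁻¹ * g' ∈ π.ker := by
      rw [MonoidHom.mem_ker, map_mul, map_inv, hgg, inv_mul_cancel]
    have := hyr g _ hk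
    rw [mul_inv_cancel_left] at this
    exact this.symm
  choose z hz using fun g => D.fixed (y g) (hfix g)
  have hzs : ∀ g, ι (z (Function.surjInv D.surj (π g))) = y g := by
    intro g
    rw [hz]
    exact hdep _ _ (Function.surjInv_eq D.surj (π g))
  refine ⟨fun q => z (Function.surjInv D.surj q), fun q r => D.inj ?_⟩
  obtain ⟨g, rfl⟩ := D.surj q
  obtain ⟨h, rfl⟩ := D.surj r
  rw [map_mul, map_div, D.equiv, ← map_mul π, hzs, hzs, hzs, hyd']

/-- **(HQ4a)** inflation is injective. -/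
theorem isMulCoboundary₂_of_infl {π : G →* Q} {ι : M' →* M} (D : InfData π ι) {f : Q × Q → M'}
    (hf : IsMulCocycle₂ f) (h : IsMulCoboundary₂ (infl π ι f)) : IsMulCoboundary₂ f := by
  obtain ⟨f', hf', hff', h1, h2⟩ := exists_normalized hf
  refine isMulCoboundary₂_of_div hff' ?_
  have h3 : IsMulCoboundary₂ (infl π ι f') := by
    have h4 := isMulCoboundary₂_div h (isMulCoboundary₂_infl D.equiv hff')
    have h5 : infl π ι f / infl π ι (f / f') = infl π ι f' := by
      funext ⟨g, k⟩
      simp [infl_apply, map_div]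
    rwa [h5] at h4
  obtain ⟨x, hx⟩ := h3
  exact infres_core_a D h1 h2 x hx

private theorem infres_core_b {π : G →* Q} {ι : M' →* M} (D : InfData π ι) {f : G × G → M}
    (hf : IsMulCocycle₂ f) (hr : ∀ g, ∀ h ∈ π.ker, f (g, h) = 1)
    (hl : ∀ g, ∀ h ∈ π.ker, f (h, g) = 1) :
    ∃ f' : Q × Q → M', IsMulCocycle₂ f' ∧ infl π ι f' = f := by
  have hA : ∀ g g', ∀ h ∈ π.ker, f (g, g' * h) = f (g, g') := fun g g' h hh =>
    right_invariant_of_right_trivial π.ker hf hr g g' hh
  have hB : ∀ g g', ∀ h ∈ π.ker, f (h * g, g') = h • f (g, g') := by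
    intro g g' h hh
    have := hf h g g'
    rwa [hl g h hh, hl (g * g') h hh, mul_one, mul_one] at this
  have hC : ∀ g g', ∀ h ∈ π.ker, f (g * h, g') = f (g, h * g') := by
    intro g g' h hh
    have := hf g h g'
    rwa [hr g h hh, hl g' h hh, smul_one, mul_one, one_mul] at this
  have hE : ∀ g g', ∀ h ∈ π.ker, f (g * h, g') = f (g, g') := by
    intro g g' h hh
    obtain ⟨hk, he⟩ := infres_conj π g' hh
    rw [hC g g' h hh, he, hA g g' _ hk]
  have hfix : ∀ g g', ∀ h ∈ π.ker, h • f (g, g') = f (g, g') := by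
    intro g g' h hh
    obtain ⟨hk, he⟩ := infres_conj π g hh
    rw [← hB g g' h hh, he, hE g g' _ hk]
  have hdep : ∀ g g' a a', π g = π a → π g' = π a' → f (g, g') = f (a, a') := by
    intro g g' a a' h1 h2
    have hk1 : g⁻¹ * a ∈ π.ker := by
      rw [MonoidHom.mem_ker, map_mul, map_inv, h1, inv_mul_cancel]
    have hk2 : g'⁻¹ * a' ∈ π.ker := by
      rw [MonoidHom.mem_ker, map_mul, map_inv, h2, inv_mul_cancel]
    have e1 := hE g g' _ hk1
    have e2 := hA a g' _ hk2
    rw [mul_inv_cancel_left] at e1 e2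
    rw [← e1, ← e2]
  choose z hz using fun g g' => D.fixed (f (g, g')) (hfix g g')
  have hinf : infl π ι (fun x : Q × Q =>
      z (Function.surjInv D.surj x.1) (Function.surjInv D.surj x.2)) = f := by
    funext ⟨g, g'⟩
    rw [infl_apply, hz]
    exact hdep _ _ _ _ (Function.surjInv_eq D.surj (π g)) (Function.surjInv_eq D.surj (π g'))
  refine ⟨_, ?_, hinf⟩
  intro q r t
  obtain ⟨g, rfl⟩ := D.surj q
  obtain ⟨h, rfl⟩ := D.surj r
  obtain ⟨j, rfl⟩ := D.surj t
  apply D.inj
  have key := hf g h j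
  rw [← hinf] at key
  simp only [infl_apply, map_mul π] at key
  rw [map_mul, map_mul, D.equiv]
  exact key

/-- **(HQ4b)** a class which dies on `H = ker π` is an inflation. -/
theorem exists_infl_of_res {π : G →* Q} {ι : M' →* M} (D : InfData π ι) {f : G × G → M}
    (hf : IsMulCocycle₂ f) (h : IsMulCoboundary₂ (pull π.ker.subtype f)) :
    ∃ f' : Q × Q → M', IsMulCocycle₂ f' ∧ IsMulCoboundary₂ (f / infl π ι f') := by
  obtain ⟨f1, hf1, hff1, hr1, hinv1⟩ := exists_cohom_right_trivial_of_res π.ker hf h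
  have hu : ∀ g, IsMulCocycle₁ (fun h : π.ker => f1 ((h : G), g)) := by
    intro g h h'
    have := hf1 h h' g
    obtain ⟨hk, he⟩ := infres_conj π g h'.2
    rw [hr1 h h' h'.2, mul_one, he, hinv1 h g _ hk] at this
    exact this
  choose m hm using fun g => D.h1 _ (hu g)
  have hm' : ∀ g, ∀ h ∈ π.ker, h • m g / m g = f1 (h, g) := fun g h hh => hm g ⟨h, hh⟩
  have hs1 : Function.surjInv D.surj 1 ∈ π.ker := Function.surjInv_eq D.surj 1
  obtain ⟨w, hw⟩ : ∃ w : G → M, ∀ g, w g =
      m (Function.surjInv D.surj (π g)) / m (Function.surjInv D.surj 1) := ⟨_, fun _ => rfl⟩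
  have hwdep : ∀ g g', π g = π g' → w g = w g' := by
    intro g g' hgg
    rw [hw, hw, hgg]
  have hwH : ∀ h ∈ π.ker, w h = 1 := by
    intro h hh
    rw [hw, (MonoidHom.mem_ker).1 hh, div_self']
  have hwu : ∀ g, ∀ h ∈ π.ker, h • w g / w g = f1 (h, g) := by
    intro g h hh
    have hk : g⁻¹ * Function.surjInv D.surj (π g) ∈ π.ker := by
      rw [MonoidHom.mem_ker, map_mul, map_inv, Function.surjInv_eq D.surj, inv_mul_cancel]
    have e1 := hinv1 h g _ hk
    rw [mul_inv_cancel_left] at e1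
    rw [hw, smul_div', div_div_div_comm, hm' _ h hh, hm' _ h hh, hr1 h _ hs1, div_one, e1]
  have hf2 : IsMulCocycle₂ (f1 / dOne w) := isMulCocycle₂_div hf1 (isMulCocycle₂_dOne w)
  have hr2 : ∀ g, ∀ h ∈ π.ker, (f1 / dOne w) (g, h) = 1 := by
    intro g h hh
    have e : w (g * h) = w g := hwdep _ _ (by rw [map_mul, (MonoidHom.mem_ker).1 hh, mul_one])
    rw [Pi.div_apply, dOne_apply, hr1 g h hh, hwH h hh, smul_one, e, div_mul_cancel, div_one]
  have hl2 : ∀ g, ∀ h ∈ π.ker, (f1 / dOne w) (h, g) = 1 := by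
    intro g h hh
    have e : w (h * g) = w g := hwdep _ _ (by rw [map_mul, (MonoidHom.mem_ker).1 hh, one_mul])
    rw [Pi.div_apply, dOne_apply, hwH h hh, e, mul_one, hwu g h hh, div_self']
  obtain ⟨f', hf', hinf⟩ := infres_core_b D hf2 hr2 hl2
  refine ⟨f', hf', ?_⟩
  rw [hinf]
  have e : f / (f1 / dOne w) = f / f1 * dOne w := by
    rw [div_div_eq_mul_div, mul_div_right_comm]
  rw [e]
  exact isMulCoboundary₂_mul hff1 (isMulCoboundary₂_dOne w)

/-- Corollary (order bound, used for `#H^2(K/F₁, Kˣ) ≤ #P`): if every class of `Q` is killed by `a`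
and every class of `H` is killed by `b` then every class of `G` is killed by `a * b`. -/
theorem isMulCoboundary₂_pow_mul {π : G →* Q} {ι : M' →* M} (D : InfData π ι) (a b : ℕ)
    (hQ : ∀ f : Q × Q → M', IsMulCocycle₂ f → IsMulCoboundary₂ (f ^ a))
    (hH : ∀ f : π.ker × π.ker → M, IsMulCocycle₂ f → IsMulCoboundary₂ (f ^ b))
    {f : G × G → M} (hf : IsMulCocycle₂ f) : IsMulCoboundary₂ (f ^ (a * b)) := by
  have h1 : IsMulCoboundary₂ (pull π.ker.subtype (f ^ b)) := by
    rw [pull_pow]
    exact hH _ (isMulCocycle₂_pull π.ker.subtype (fun _ _ => rfl) hf)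
  obtain ⟨f', hf', hff'⟩ := exists_infl_of_res D (isMulCocycle₂_pow hf b) h1
  have h2 : IsMulCoboundary₂ (infl π ι (f' ^ a)) := isMulCoboundary₂_infl D.equiv (hQ f' hf')
  have h3 := isMulCoboundary₂_mul (isMulCoboundary₂_pow hff' a) h2
  have e : (f ^ b / infl π ι f') ^ a * infl π ι (f' ^ a) = f ^ (a * b) := by
    funext ⟨g, k⟩
    simp only [Pi.mul_apply, Pi.pow_apply, Pi.div_apply, infl_apply, map_pow, div_pow,
      div_mul_cancel]
    rw [← pow_mul, mul_comm]
  rwa [e] at h3

end Fermat.Agent.S55.HQ
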