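import Fermat.Agent.S55.HQ.Cocycle

/-!
# S55-HQ : normalising a 2-cocycle along a subgroup on which it is trivial

`P ≤ G` any subgroup.  A 2-cocycle whose restriction to `P` is a coboundary is cohomologous to a
2-cocycle `f'` with `f' (g, h) = 1` for all `g : G`, `h ∈ P`; such an `f'` satisfies
`f' (g, g' * h) = f' (g, g')`.
-/

namespace Fermat.Agent.S55.HQ

open groupCohomology

variable {G M : Type*} [Group G] [CommGroup M] [MulDistribMulAction G M]

/-- (N0) extend the trivialisation: `f|P` coboundary => `f` cohomologous to `f'` with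
`f' (h, h') = 1` for `h h' ∈ P`. -/
theorem exists_cohom_trivial_on (P : Subgroup G) {f : G × G → M} (hf : IsMulCocycle₂ f)
    (hP : IsMulCoboundary₂ (pull P.subtype f)) :
    ∃ f' : G × G → M, IsMulCocycle₂ f' ∧ IsMulCoboundary₂ (f / f') ∧
      ∀ h ∈ P, ∀ h' ∈ P, f' (h, h') = 1 := by
  classical
  obtain ⟨x, hx⟩ := hP
  let xt : G → M := fun g => if hg : g ∈ P then x ⟨g, hg⟩ else 1
  refine ⟨f / dOne xt, isMulCocycle₂_div hf (isMulCocycle₂_dOne xt), ?_, ?_⟩
  · have : f / (f / dOne xt) = dOne xt := by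
      ext gh
      simp
    rw [this]
    exact isMulCoboundary₂_dOne xt
  · intro h hh h' hh'
    have h1 := hx ⟨h, hh⟩ ⟨h', hh'⟩
    have h2 : dOne xt (h, h') = f (h, h') := by
      rw [dOne_apply]
      simp only [xt, hh, hh', P.mul_mem hh hh', dif_pos]
      exact h1
    rw [Pi.div_apply, h2, div_self']

/-- (N1) `f (h, h') = 1` on `P × P` => `f` cohomologous to `f'` with `f' (g, h) = 1` for all
`g : G`, `h ∈ P`.  [Choose representatives `r` of `G/P` (left cosets `g P`), `g = r(g) h_g`,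
`z g = f (r g, h_g)`; then `f (g, h) = z (g h) / z g` and `f' = f * dOne z`.] -/
theorem exists_cohom_right_trivial (P : Subgroup G) {f : G × G → M} (hf : IsMulCocycle₂ f)
    (hP : ∀ h ∈ P, ∀ h' ∈ P, f (h, h') = 1) :
    ∃ f' : G × G → M, IsMulCocycle₂ f' ∧ IsMulCoboundary₂ (f / f') ∧
      ∀ g : G, ∀ h ∈ P, f' (g, h) = 1 := by
  classical
  let r : G → G := fun g => Quotient.out (QuotientGroup.mk g : G ⧸ P)
  have hr : ∀ g, (r g)⁻¹ * g ∈ P := by
    intro g
    have : (QuotientGroup.mk (r g) : G ⧸ P) = QuotientGroup.mk g := Quotient.out_eq _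
    exact QuotientGroup.eq.mp this
  have hrmul : ∀ g, ∀ h ∈ P, r (g * h) = r g := by
    intro g h hh
    have : (QuotientGroup.mk (g * h) : G ⧸ P) = QuotientGroup.mk g := by
      rw [QuotientGroup.eq]
      simpa using P.inv_mem hh
    simp only [r, this]
  let z : G → M := fun g => f (r g, (r g)⁻¹ * g)
  have hz : ∀ g, ∀ h ∈ P, f (g, h) * z g = z (g * h) := by
    intro g h hh
    have h1 := hf (r g) ((r g)⁻¹ * g) h
    rw [mul_inv_cancel_left, hP _ (hr g) _ hh, smul_one, one_mul, mul_assoc] at h1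
    simp only [z, hrmul g h hh]
    exact h1
  have hzP : ∀ h ∈ P, z h = 1 := by
    intro h hh
    have h1 : r h ∈ P := by
      have := P.mul_mem hh (P.inv_mem (hr h))
      simpa using this
    exact hP _ h1 _ (hr h)
  refine ⟨f * dOne z, isMulCocycle₂_mul hf (isMulCocycle₂_dOne z), ?_, ?_⟩
  · have : f / (f * dOne z) = dOne z⁻¹ := by
      rw [dOne_inv]
      ext gh
      simp
    rw [this]
    exact isMulCoboundary₂_dOne _
  · intro g h hh
    rw [Pi.mul_apply, dOne_apply, hzP h hh, smul_one, ← hz g h hh]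
    simp

/-- (N2) consequence of the cocycle identity. -/
theorem right_invariant_of_right_trivial (P : Subgroup G) {f : G × G → M} (hf : IsMulCocycle₂ f)
    (hP : ∀ g : G, ∀ h ∈ P, f (g, h) = 1) (g g' : G) {h : G} (hh : h ∈ P) :
    f (g, g' * h) = f (g, g') := by
  have h1 := hf g g' h
  rw [hP _ h hh, hP _ h hh, smul_one, one_mul, one_mul] at h1
  exact h1.symm

/-- (N) all together. -/
theorem exists_cohom_right_trivial_of_res (P : Subgroup G) {f : G × G → M} (hf : IsMulCocycle₂ f)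
    (hP : IsMulCoboundary₂ (pull P.subtype f)) :
    ∃ f' : G × G → M, IsMulCocycle₂ f' ∧ IsMulCoboundary₂ (f / f') ∧
      (∀ g : G, ∀ h ∈ P, f' (g, h) = 1) ∧
      (∀ g g' : G, ∀ h ∈ P, f' (g, g' * h) = f' (g, g')) := by
  obtain ⟨f₁, hf₁, hb₁, ht₁⟩ := exists_cohom_trivial_on P hf hP
  obtain ⟨f₂, hf₂, hb₂, ht₂⟩ := exists_cohom_right_trivial P hf₁ ht₁
  refine ⟨f₂, hf₂, ?_, ht₂, fun g g' h hh => right_invariant_of_right_trivial P hf₂ ht₂ g g' hh⟩
  have : f / f₂ = (f / f₁) * (f₁ / f₂) := by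
    ext gh
    simp
  rw [this]
  exact isMulCoboundary₂_mul hb₁ hb₂

end Fermat.Agent.S55.HQ
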