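import Fermat.Agent.S55.HQ.Normalize

/-!
# S55-HQ : (HQ5) restriction to a subgroup of finite index `m` is injective up to `m`
-/

namespace Fermat.Agent.S55.HQ

open groupCohomology

variable {G M : Type*} [Group G] [CommGroup M] [MulDistribMulAction G M]

/-- `f|P` coboundary => `f ^ [G:P]` coboundary.  [By `exists_cohom_right_trivial_of_res` we may
assume that `f (g, ·)` is a function on `G ⧸ P`; put `y g = ∏_{c : G ⧸ P} f (g, c)`; multiply the
cocycle identity over `j ∈ G ⧸ P`.] -/
theorem isMulCoboundary₂_pow_index (P : Subgroup G) [P.FiniteIndex] {f : G × G → M}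
    (hf : IsMulCocycle₂ f) (hP : IsMulCoboundary₂ (pull P.subtype f)) :
    IsMulCoboundary₂ (f ^ P.index) := by
  classical
  obtain ⟨f', hf', hb, -, hinv⟩ := exists_cohom_right_trivial_of_res P hf hP
  have : Fintype (G ⧸ P) := Fintype.ofFinite _
  let y : G → M := fun g => ∏ c : G ⧸ P, f' (g, Quotient.out c)
  have hout : ∀ (g h : G) (c : G ⧸ P), f' (g, h * Quotient.out c) = f' (g, Quotient.out (h • c)) := by
    intro g h c
    have h1 : (QuotientGroup.mk (Quotient.out (h • c)) : G ⧸ P) =
        QuotientGroup.mk (h * Quotient.out c) := by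
      have h2 : (QuotientGroup.mk (Quotient.out (h • c)) : G ⧸ P) = h • c := Quotient.out_eq _
      have h3 : (QuotientGroup.mk (Quotient.out c) : G ⧸ P) = c := Quotient.out_eq _
      rw [h2]
      conv_lhs => rw [← h3]
      rfl
    have h4 : (Quotient.out (h • c))⁻¹ * (h * Quotient.out c) ∈ P := QuotientGroup.eq.mp h1
    have h5 := hinv g (Quotient.out (h • c)) _ h4
    rw [mul_inv_cancel_left] at h5
    exact h5
  have hkey : f' ^ P.index = dOne y := by
    ext ⟨g, h⟩
    rw [Pi.pow_apply, dOne_apply]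
    have h1 : ∏ c : G ⧸ P, (f' (g * h, Quotient.out c) * f' (g, h)) =
        ∏ c : G ⧸ P, (g • f' (h, Quotient.out c) * f' (g, h * Quotient.out c)) :=
      Finset.prod_congr rfl (fun c _ => hf' g h (Quotient.out c))
    rw [Finset.prod_mul_distrib, Finset.prod_mul_distrib, Finset.prod_const, Finset.card_univ,
      ← Finset.smul_prod'] at h1
    have h2 : ∏ c : G ⧸ P, f' (g, h * Quotient.out c) = y g := by
      simp only [hout]
      exact Equiv.prod_comp (MulAction.toPerm h) (fun c : G ⧸ P => f' (g, Quotient.out c))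
    rw [h2] at h1
    have h3 : P.index = Fintype.card (G ⧸ P) := by
      rw [Subgroup.index, Nat.card_eq_fintype_card]
    rw [h3]
    have h4 : y (g * h) * f' (g, h) ^ Fintype.card (G ⧸ P) = g • y h * y g := h1
    rw [eq_comm, div_mul_eq_mul_div, div_eq_iff_eq_mul, ← h4, mul_comm]
  have h2 : f ^ P.index = (f / f') ^ P.index * f' ^ P.index := by
    rw [← mul_pow]
    congr 1
    ext gh
    simp
  rw [h2, hkey]
  exact isMulCoboundary₂_mul (isMulCoboundary₂_pow hb _) (isMulCoboundary₂_dOne y)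

/-- **(HQ5)** -/
theorem isMulCoboundary₂_of_res (P : Subgroup G) [P.FiniteIndex] (p : ℕ)
    (hp : Nat.Coprime p P.index) {f : G × G → M} (hf : IsMulCocycle₂ f)
    (hfp : IsMulCoboundary₂ (f ^ p)) (hP : IsMulCoboundary₂ (pull P.subtype f)) :
    IsMulCoboundary₂ f :=
  isMulCoboundary₂_of_pow_of_pow hp hfp (isMulCoboundary₂_pow_index P hf hP)

/-- (HQ5) for an injective homomorphism `φ : P → G` (e.g. `Gal(K/F₁) → Gal(K/F)`). -/
theorem isMulCoboundary₂_of_pull {P : Type*} [Group P] [MulDistribMulAction P M] (φ : P →* G)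
    (hφ : ∀ (g : P) (m : M), g • m = φ g • m) (hinj : Function.Injective φ)
    (hfin : φ.range.index ≠ 0) (p : ℕ) (hp : Nat.Coprime p φ.range.index) {f : G × G → M}
    (hf : IsMulCocycle₂ f) (hfp : IsMulCoboundary₂ (f ^ p)) (hP : IsMulCoboundary₂ (pull φ f)) :
    IsMulCoboundary₂ f := by
  have : φ.range.FiniteIndex := ⟨hfin⟩
  refine isMulCoboundary₂_of_res φ.range p hp hf hfp ?_
  obtain ⟨x, hx⟩ := hP
  let e : P ≃* φ.range := MonoidHom.ofInjective hinj
  have he : ∀ a : φ.range, φ (e.symm a) = a := by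
    intro a
    have : (e (e.symm a) : G) = φ (e.symm a) := MonoidHom.ofInjective_apply hinj
    rw [← this, e.apply_symm_apply]
  refine ⟨fun a => x (e.symm a), fun a b => ?_⟩
  have h1 := hx (e.symm a) (e.symm b)
  rw [pull_apply, he, he, hφ, he, ← map_mul] at h1
  exact h1

/-- Existence of a Sylow subgroup in the form used by LDB / BRG. -/
theorem exists_sylow_data [Finite G] (p : ℕ) [Fact p.Prime] :
    ∃ P : Subgroup G, IsPGroup p P ∧ Nat.Coprime p P.index := by
  obtain ⟨P⟩ : Nonempty (Sylow p G) := inferInstance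
  exact ⟨P, P.isPGroup', (Nat.Prime.coprime_iff_not_dvd Fact.out).mpr P.not_dvd_index⟩

end Fermat.Agent.S55.HQ
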